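import Fermat.Agent.S19.H.Defs

/-!
# S19-H : Galois descent for functions on a finite `GQ`-set
-/

set_option autoImplicit false

noncomputable section

namespace Fermat.Agent.S19

variable {X : Type} [Fintype X] [MulAction GQ X]

/-- `GQ`-equivariant functions which are linearly independent over `ℚ` are linearly independent
over `Qb`.  [a shortest non trivial relation `∑ z_i a_i = 0` with `z_{i₀} = 1`; apply `σ`:
`∑ σ(z_i) a_i = 0` (evaluate at `σ x`); subtract: shorter; so all `z_i` are fixed by `GQ`, so
rational (`IsGalois.fixedField_top` / `InfiniteGalois` / `IsGalois.mem_bot_iff_fixed`).] -/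
theorem linearIndependent_of_equivariant {ι : Type} (a : ι → X → Qb)
    (ha : ∀ i (σ : GQ) x, a i (σ • x) = σ (a i x)) (h : LinearIndependent ℚ a) :
    LinearIndependent Qb a := by
  classical
  have hcl : IsAlgClosure ℚ Qb := ⟨inferInstance, AlgebraicClosure.isAlgebraic ℚ⟩
  have hgal : IsGalois ℚ Qb := IsAlgClosure.isGalois ℚ Qb
  rw [linearIndependent_iff']
  intro s
  induction s using Finset.induction_on with
  | empty => intro g _ i hi; simp at hi
  | insert j t hj IH =>
    intro g hg
    rw [Finset.sum_insert hj] at hg
    by_cases hgj : g j = 0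
    · rw [hgj, zero_smul, zero_add] at hg
      intro i hi
      rcases Finset.mem_insert.1 hi with rfl | hi
      · exact hgj
      · exact IH g hg i hi
    · exfalso
      -- normalise
      set g' : ι → Qb := fun i => (g j)⁻¹ * g i with hg'
      have h1 : a j + ∑ i ∈ t, g' i • a i = 0 := by
        have := congrArg (fun f => (g j)⁻¹ • f) hg
        simp only [smul_add, smul_zero, Finset.smul_sum, smul_smul] at this
        rw [inv_mul_cancel₀ hgj, one_smul] at this
        exact this
      -- apply `σ`
      have h2 : ∀ σ : GQ, a j + ∑ i ∈ t, (σ (g' i)) • a i = 0 := by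
        intro σ
        funext x
        have h3 := congrFun h1 (σ⁻¹ • x)
        have h4 := congrArg σ h3
        simp only [Pi.add_apply, Finset.sum_apply, Pi.smul_apply, smul_eq_mul, Pi.zero_apply,
          map_add, map_sum, map_mul, map_zero] at h4 ⊢
        have h5 : ∀ i, σ (a i (σ⁻¹ • x)) = a i x := by
          intro i
          rw [← ha, smul_inv_smul]
        simpa only [h5] using h4
      have h3 : ∀ σ : GQ, ∀ i ∈ t, σ (g' i) = g' i := by
        intro σ i hi
        have h4 : ∑ i ∈ t, (σ (g' i) - g' i) • a i = 0 := by
          have := (h2 σ).trans h1.symm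
          have h5 := add_left_cancel this
          simp only [sub_smul, Finset.sum_sub_distrib, h5, sub_self]
        exact sub_eq_zero.1 (IH _ h4 i hi)
      have h4 : ∀ i ∈ t, ∃ r : ℚ, algebraMap ℚ Qb r = g' i := by
        intro i hi
        exact (InfiniteGalois.mem_range_algebraMap_iff_fixed (k := ℚ) (K := Qb) (g' i)).2
          (fun σ => h3 σ i hi)
      choose! r hr using h4
      have h5 : ∑ i ∈ insert j t, (if i = j then (1 : ℚ) else r i) • a i = 0 := by
        rw [Finset.sum_insert hj, if_pos rfl, one_smul, ← h1]
        congr 1
        apply Finset.sum_congr rfl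
        intro i hi
        have hij : i ≠ j := fun e => hj (e ▸ hi)
        rw [if_neg hij, ← hr i hi, algebraMap_smul]
      have h6 := linearIndependent_iff'.1 h _ _ h5 j (Finset.mem_insert_self _ _)
      rw [if_pos rfl] at h6
      exact one_ne_zero h6

end Fermat.Agent.S19
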