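import Fermat.Agent.S19.H.Lattice
import Fermat.Agent.S19.H.Descent

/-!
# S19-H : the lattice `ED A ⊤ X` of integral equivariant functions (H2)
-/

set_option autoImplicit false

noncomputable section

namespace Fermat.Agent.S19

variable {X : Type} [Fintype X] [MulAction GQ X] {ℓ : ℕ} [Fact ℓ.Prime]

/-- `ℚ` is the fraction field of `ℤ_(ℓ)`. -/
theorem basis_isFractionRing (ℓ : ℕ) : IsFractionRing (Rl ℓ) ℚ := by
  refine IsFractionRing.of_field (R := Rl ℓ) (K := ℚ) (fun z => ?_)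
  refine ⟨⟨(z.num : ℚ), ?_⟩, ⟨(z.den : ℚ), ?_⟩, ?_⟩
  · change ((z.num : ℚ)).den.Coprime ℓ
    simp
  · change ((z.den : ℚ)).den.Coprime ℓ
    simp
  · change z = (z.num : ℚ) / (z.den : ℚ)
    exact (Rat.num_div_den z).symm

/-- every `Rl ℓ`-submodule `M` of `EAlg` which spans `X → Qb` over `Qb` has an `Rl ℓ`-basis which is
a `Qb`-basis of `X → Qb`.  [f.g. (noetherian), torsion free, PID: free
(`Module.free_of_finite_type_torsion_free'`, `Module.Free.chooseBasis`); independent over `Rl ℓ` ⟹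
over `ℚ` (clear denominators) ⟹ over `Qb` (`linearIndependent_of_equivariant`).] -/
theorem exists_basis_of_le (A : ValuationSubring Qb) (hA : A.LiesOverPrime ℓ) (hfin : FinLevel X)
    (M : Submodule (Rl ℓ) (X → Qb)) (hM : ∀ a ∈ M, a ∈ ED A ⊤ X)
    (hspan : Submodule.span Qb (M : Set (X → Qb)) = ⊤) :
    ∃ (ι : Type) (_ : Fintype ι) (b : Module.Basis ι (Rl ℓ) M),
      LinearIndependent Qb (fun i => ((b i : M) : X → Qb)) ∧
        Submodule.span Qb (Set.range fun i => ((b i : M) : X → Qb)) = ⊤ := by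
  classical
  -- finiteness
  have hfinE : Module.Finite (Rl ℓ) (EAlg ℓ A hA X) := EAlg_finite A hA hfin
  have hfinE' : Module.Finite (Rl ℓ) (Subalgebra.toSubmodule (EAlg ℓ A hA X)) := hfinE
  have hnoeth : IsNoetherian (Rl ℓ) (Subalgebra.toSubmodule (EAlg ℓ A hA X)) :=
    isNoetherian_of_isNoetherianRing_of_finite _ _
  have hle : M ≤ Subalgebra.toSubmodule (EAlg ℓ A hA X) := fun a ha => hM a ha
  have hMfg : M.FG := isNoetherian_submodule.mp hnoeth M hle
  have hMfin : Module.Finite (Rl ℓ) M := Module.Finite.iff_fg.mpr hMfg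
  have : FaithfulSMul (Rl ℓ) Qb :=
    (faithfulSMul_iff_algebraMap_injective _ _).mpr algebraMap_Rl_injective
  have : Module.IsTorsionFree (Rl ℓ) Qb := inferInstance
  have : Module.IsTorsionFree (Rl ℓ) (X → Qb) := inferInstance
  have : Module.IsTorsionFree (Rl ℓ) M := inferInstance
  have : Module.Free (Rl ℓ) M := Module.free_of_finite_type_torsion_free'
  let b := Module.Free.chooseBasis (Rl ℓ) M
  refine ⟨Module.Free.ChooseBasisIndex (Rl ℓ) M, inferInstance, b, ?_, ?_⟩
  · apply linearIndependent_of_equivariant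
    · intro i σ x
      exact (hM _ (b i).2).2 σ (Subgroup.mem_top σ) x
    · have := basis_isFractionRing ℓ
      rw [← LinearIndependent.iff_fractionRing (Rl ℓ) ℚ]
      exact b.linearIndependent.map' M.subtype (Submodule.ker_subtype M)
  · rw [eq_top_iff, ← hspan, Submodule.span_le]
    intro m hm
    have h1 : (⟨m, hm⟩ : M) = ∑ i, b.repr ⟨m, hm⟩ i • b i := (b.sum_repr ⟨m, hm⟩).symm
    have h2 : m = ∑ i, b.repr ⟨m, hm⟩ i • ((b i : M) : X → Qb) := by
      have h3 := congrArg (M.subtype) h1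
      rw [map_sum] at h3
      simpa only [map_smul, Submodule.subtype_apply] using h3
    rw [h2]
    refine Submodule.sum_mem _ (fun i _ => ?_)
    exact Submodule.smul_of_tower_mem _ _ (Submodule.subset_span ⟨i, rfl⟩)

/-- (H2) in coordinates: a basis indexed by `X` itself. -/
theorem exists_basis (A : ValuationSubring Qb) (hA : A.LiesOverPrime ℓ) (hfin : FinLevel X) :
    ∃ a : X → (X → Qb), (∀ i, a i ∈ ED A ⊤ X) ∧ LinearIndependent Qb a ∧
      ∀ f ∈ ED A ⊤ X, ∃ c : X → Rl ℓ, f = ∑ i, algebraMap (Rl ℓ) Qb (c i) • a i := by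
  classical
  obtain ⟨ι, hι, b, hli, hsp⟩ := exists_basis_of_le A hA hfin
    (Subalgebra.toSubmodule (EAlg ℓ A hA X)) (fun a ha => ha) (span_ED_top_eq_top A hfin)
  -- the `Qb`-basis
  let B : Module.Basis ι Qb (X → Qb) := Module.Basis.mk hli hsp.ge
  have hcard : Fintype.card X = Fintype.card ι := by
    have h1 := Module.finrank_eq_card_basis B
    have h2 : Module.finrank Qb (X → Qb) = Fintype.card X := Module.finrank_fintype_fun_eq_card Qb
    omega
  let e : X ≃ ι := Fintype.equivOfCardEq hcard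
  refine ⟨fun i => ((b (e i) : Subalgebra.toSubmodule (EAlg ℓ A hA X)) : X → Qb),
    fun i => (b (e i)).2, hli.comp e e.injective, ?_⟩
  intro f hf
  refine ⟨fun i => b.repr ⟨f, hf⟩ (e i), ?_⟩
  have h1 : (⟨f, hf⟩ : Subalgebra.toSubmodule (EAlg ℓ A hA X)) = ∑ i, b.repr ⟨f, hf⟩ i • b i :=
    (b.sum_repr ⟨f, hf⟩).symm
  have h2 : f = ∑ i, b.repr ⟨f, hf⟩ i • ((b i : Subalgebra.toSubmodule (EAlg ℓ A hA X)) : X → Qb) := by
    have h3 := congrArg (Submodule.subtype _) h1
    rw [map_sum] at h3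
    simpa only [map_smul, Submodule.subtype_apply] using h3
  rw [Equiv.sum_comp e (fun j => algebraMap (Rl ℓ) Qb (b.repr ⟨f, hf⟩ j) •
    ((b j : Subalgebra.toSubmodule (EAlg ℓ A hA X)) : X → Qb))]
  conv_lhs => rw [h2]
  refine Finset.sum_congr rfl (fun i _ => ?_)
  rw [algebraMap_smul]

end Fermat.Agent.S19
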