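import Fermat.Agent.S19.H.Step

/-!
# S19-H : (H1) from the decomposition group to the whole Galois group
-/

set_option autoImplicit false

open scoped Pointwise

noncomputable section

namespace Fermat.Agent.S19

variable {X : Type} [Fintype X] [MulAction GQ X] {ℓ : ℕ} [Fact ℓ.Prime]

theorem Local_smul_mem_MG (A : ValuationSubring Qb) {c : Qb} (hc : c ∈ A) {b : X → Qb}
    (hb : b ∈ MG A X) : c • b ∈ MG A X :=
  (MG A X).smul_mem (⟨c, hc⟩ : A) hb

theorem Local_exists_iter (A : ValuationSubring Qb) (hA : A.LiesOverPrime ℓ) (hfin : FinLevel X)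
    (s : ℕ) (a : X → Qb) (ha : a ∈ ED A (A.decompositionSubgroup ℚ) X) :
    ∃ b ∈ MG A X, ∃ a' ∈ ED A (A.decompositionSubgroup ℚ) X, a = b + ((ℓ : Qb) ^ s) • a' := by
  induction s with
  | zero => exact ⟨0, (MG A X).zero_mem, a, ha, by rw [pow_zero, one_smul, zero_add]⟩
  | succ s ih =>
    obtain ⟨b, hb, a', ha', hab⟩ := ih
    obtain ⟨b', hb', a'', ha'', hab'⟩ := exists_step A hA hfin a' ha'
    refine ⟨b + ((ℓ : Qb) ^ s) • b', (MG A X).add_mem hb
      (Local_smul_mem_MG A (pow_mem (natCast_mem A ℓ) s) hb'), a'', ha'', ?_⟩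
    rw [hab, hab', smul_add, smul_smul, ← pow_succ, add_assoc]

/-- (H1). [iterate `exists_step` `s` times, `s` from `exists_pow_smul_mem_MG`.] -/
theorem ED_subset_MG (A : ValuationSubring Qb) (hA : A.LiesOverPrime ℓ) (hfin : FinLevel X) :
    ED A (A.decompositionSubgroup ℚ) X ⊆ MG A X := by
  intro a ha
  obtain ⟨s, hs⟩ := exists_pow_smul_mem_MG (X := X) A hA hfin
  obtain ⟨b, hb, a', ha', hab⟩ := Local_exists_iter A hA hfin s a ha
  rw [hab]
  exact (MG A X).add_mem hb (hs a' ha'.1)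

theorem MD_eq_MG (A : ValuationSubring Qb) (hA : A.LiesOverPrime ℓ) (hfin : FinLevel X) :
    MD A X = MG A X := by
  apply le_antisymm
  · exact Submodule.span_le.2 (ED_subset_MG A hA hfin)
  · refine Submodule.span_mono ?_
    intro a ha
    exact ⟨ha.1, fun σ _ x => ha.2 σ (Subgroup.mem_top σ) x⟩

end Fermat.Agent.S19
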