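import Fermat.Agent.S19.H.Order
import Fermat.Agent.S19.H.Local

/-!
# S19-H : THEOREM H, the flatness criterion (pairing form)
-/

set_option autoImplicit false

noncomputable section

namespace Fermat.Agent.S19

variable {V W : Type} [AddCommGroup V] [AddCommGroup W] [DistribMulAction GQ V]
  [DistribMulAction GQ W] {ℓ : ℕ} [Fact ℓ.Prime]

/-- a Hopf order of functions gives a flat model.
[`H := ↥Hf`, `FunHopf.hopf hd`, `FunHopf.isCocomm`, `FunHopf.exists_equiv`; finite + flat from the
basis in `hd.basis` (`Module.Finite.of_basis`, `Module.Flat.of_free`); equivariance: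
`g h = σ (f h) = σ (h (e f)) = h (σ • e f)`, so `g` is the evaluation at `σ • e f`
(`FunHopf.evPt_injective`).] -/
theorem flatModel_of_data [Fintype V] (A : ValuationSubring Qb)
    (Hf : Subalgebra (Rl ℓ) (V → Qb)) (hd : FunHopf.Data Hf) (hE : ∀ h ∈ Hf, h ∈ ED A ⊤ V) :
    FlatModel ℓ V (fun σ x => σ • x) := by
  letI := FunHopf.hopf hd
  obtain ⟨ι, _, b, -, -⟩ := hd.basis
  obtain ⟨e, he1, he2⟩ := FunHopf.exists_equiv hd
  have hfree : Module.Free (Rl ℓ) Hf := Module.Free.of_basis b
  refine ⟨↥Hf, inferInstance, FunHopf.hopf hd, Module.Finite.of_basis b, Module.Flat.of_free,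
    FunHopf.isCocomm hd, e, he2, ?_⟩
  intro σ f g hfg
  apply FunHopf.evPt_injective hd
  ext h
  change (h : V → Qb) (e g) = (h : V → Qb) (σ • e f)
  rw [← he1 g h, hfg h, he1 f h, (hE h h.2).2 σ (Subgroup.mem_top σ)]

/-- **THEOREM H** (pairing form): if every `e x` is an `A`-linear combination of `A`-valued
functions on `W` which are equivariant under the decomposition group of `A`, then `V` has a finite
flat model over `ℤ_(ℓ)`. -/
theorem flatModel_of_pairing [Finite V] [Finite W] (A : ValuationSubring Qb)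
    (hA : A.LiesOverPrime ℓ) (hfinV : FinLevel V) (hfinW : FinLevel W)
    (e : V → W → Qb) (he : IsPairing e) (hCH : ∀ x, e x ∈ MD A W) :
    FlatModel ℓ V (fun σ x => σ • x) := by
  classical
  letI : Fintype V := Fintype.ofFinite V
  letI : Fintype W := Fintype.ofFinite W
  have hCH' : ∀ x, e x ∈ MG A W := fun x => by
    rw [← MD_eq_MG A hA hfinW]; exact hCH x
  obtain ⟨γ, h1, h2, h3, h4⟩ := exists_gamma A hA hfinW e he hCH'
  exact flatModel_of_data A (HfOf ℓ γ) (data_HfOf A hA hfinV γ h1 h2 h3 h4)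
    (fun h hh => HfOf_le A hA γ h1 hh)

end Fermat.Agent.S19
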