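import Fermat.Agent.S19.H.Approx1

/-!
# S19-H : weak approximation, in the form needed for (H1)
-/

set_option autoImplicit false

open scoped Pointwise

noncomputable section

namespace Fermat.Agent.S19

variable {ℓ : ℕ} [Fact ℓ.Prime]

/-- a non-unit of `A` has a power divisible by `ℓ`.
[ELEMENTARY: `x` is a root of a primitive `c₀ + c₁ X + … + c_d X^d ∈ ℤ[X]`; let `i` be the smallest
index with `ℓ ∤ c_i`; then `x ^ i * (c_i + c_{i+1} x + …) = -(c₀ + … + c_{i-1} x^{i-1}) ∈ ℓ A` and the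
second factor is a unit of `A` (`c_i` is a unit, `x` is a non-unit).  OR: use the norm
`‖padicEmbedding ℓ (τ x)‖ < 1` of `Fermat.Agent.S55.DIC.exists_conj_padicPlace`.] -/
theorem exists_pow_eq_mul (A : ValuationSubring Qb) (hA : A.LiesOverPrime ℓ) (x : Qb)
    (hx : x ∈ A.nonunits) : ∃ e : ℕ, ∃ t ∈ A, x ^ e = ℓ * t := by
  obtain ⟨τ, hτ⟩ := Fermat.Agent.S55.DIC.exists_conj_padicPlace (q := ℓ) A hA
  have hℓ0 : (ℓ : Qb) ≠ 0 := by exact_mod_cast (Fact.out : ℓ.Prime).ne_zero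
  have hℓR : (0 : ℝ) < (ℓ : ℝ) := by exact_mod_cast (Fact.out : ℓ.Prime).pos
  rcases (ValuationSubring.mem_nonunits_iff_or A).1 hx with rfl | hx'
  · exact ⟨1, 0, A.zero_mem, by simp⟩
  rw [hτ, map_inv₀, map_inv₀, norm_inv, not_le] at hx'
  have hpos : 0 < ‖padicEmbedding ℓ (τ x)‖ := by
    by_contra h0
    have h1 : ‖padicEmbedding ℓ (τ x)‖ = 0 := le_antisymm (not_lt.1 h0) (norm_nonneg _)
    rw [h1, inv_zero] at hx'
    exact absurd hx' (by norm_num)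
  have hlt : ‖padicEmbedding ℓ (τ x)‖ < 1 := by
    rw [one_lt_inv₀ hpos] at hx'
    exact hx'
  obtain ⟨e, he⟩ := exists_pow_lt_of_lt_one (inv_pos.2 hℓR) hlt
  refine ⟨e, x ^ e / ℓ, ?_, by field_simp⟩
  rw [hτ, map_div₀, map_div₀, map_pow, map_pow, map_natCast, map_natCast, norm_div, norm_pow,
    Fermat.Agent.S55.DIC.norm_natCast_self, div_inv_eq_mul]
  have h2 := mul_le_mul_of_nonneg_right he.le hℓR.le
  rwa [inv_mul_cancel₀ hℓR.ne'] at h2

/-- the set of conjugates of an element is finite. -/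
theorem approx_conj_finite (x : Qb) : {y : Qb | ∃ σ : GQ, σ x = y}.Finite := by
  have hint : IsIntegral ℚ x := ((AlgebraicClosure.isAlgebraic ℚ).isAlgebraic x).isIntegral
  refine ((minpoly ℚ x).rootSet_finite Qb).subset ?_
  rintro _ ⟨σ, rfl⟩
  rw [Polynomial.mem_rootSet]
  refine ⟨minpoly.ne_zero hint, ?_⟩
  rw [Polynomial.aeval_algHom_apply, minpoly.aeval, map_zero]

/-- a normal subfield is stable under `GQ`. -/
theorem approx_map_mem (L : IntermediateField ℚ Qb) (hL : Normal ℚ L) (σ : GQ) {x : Qb}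
    (hx : x ∈ L) : σ x ∈ L := by
  have : IsAlgClosure ℚ Qb := ⟨inferInstance, AlgebraicClosure.isAlgebraic ℚ⟩
  have : Normal ℚ Qb := IsAlgClosure.normal ℚ Qb
  exact IntermediateField.normal_iff_forall_map_le'.1 hL σ ⟨x, hx, rfl⟩

theorem approx_mul_mem_nonunits (A : ValuationSubring Qb) {x y : Qb} (hx : x ∈ A.nonunits)
    (hy : y ∈ A) : x * y ∈ A.nonunits := by
  rw [ValuationSubring.mem_nonunits_iff] at hx ⊢
  rw [map_mul]
  exact mul_lt_one_of_lt_of_le hx ((A.valuation_le_one_iff _).2 hy)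

/-- a uniform exponent for finitely many non-units. -/
theorem approx_exists_pow (A : ValuationSubring Qb) (hA : A.LiesOverPrime ℓ) {Z : Set Qb}
    (hZ : Z.Finite) (h : ∀ z ∈ Z, z ∈ A.nonunits) :
    ∃ e : ℕ, ∀ z ∈ Z, ∃ t ∈ A, z ^ e = ℓ * t := by
  induction Z, hZ using Set.Finite.induction_on with
  | empty => exact ⟨0, fun z hz => absurd hz (Set.notMem_empty z)⟩
  | @insert a Z _ _ ih =>
    obtain ⟨e₁, h₁⟩ := ih fun z hz => h z (Set.mem_insert_of_mem a hz)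
    obtain ⟨e₂, t₂, ht₂, h₂⟩ := exists_pow_eq_mul A hA a (h a (Set.mem_insert a Z))
    refine ⟨e₁ + e₂, fun z hz => ?_⟩
    have hzA : z ∈ A := ValuationSubring.nonunits_subset (h z hz)
    rcases Set.mem_insert_iff.1 hz with rfl | hz
    · exact ⟨z ^ e₁ * t₂, A.mul_mem _ _ (pow_mem hzA _) ht₂, by rw [pow_add, h₂]; ring⟩
    · obtain ⟨t, ht, h₃⟩ := h₁ z hz
      exact ⟨t * z ^ e₂, A.mul_mem _ _ ht (pow_mem hzA _), by rw [pow_add, h₃]; ring⟩

/-- a uniform denominator for finitely many elements. -/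
theorem approx_exists_denom (A : ValuationSubring Qb) (hA : A.LiesOverPrime ℓ) {C : Set Qb}
    (hC : C.Finite) : ∃ s : ℕ, ∀ c ∈ C, (ℓ : Qb) ^ s * c ∈ A := by
  have hℓA : (ℓ : Qb) ∈ A := natCast_mem A ℓ
  induction C, hC using Set.Finite.induction_on with
  | empty => exact ⟨0, fun z hz => absurd hz (Set.notMem_empty z)⟩
  | @insert a C _ _ ih =>
    obtain ⟨s₁, h₁⟩ := ih
    obtain ⟨s₂, h₂⟩ := exists_pow_mul_mem A hA a
    refine ⟨s₁ + s₂, fun c hc => ?_⟩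
    rcases Set.mem_insert_iff.1 hc with rfl | hc
    · have : (ℓ : Qb) ^ (s₁ + s₂) * c = (ℓ : Qb) ^ s₁ * ((ℓ : Qb) ^ s₂ * c) := by
        rw [pow_add]; ring
      rw [this]
      exact A.mul_mem _ _ (pow_mem hℓA _) h₂
    · have : (ℓ : Qb) ^ (s₁ + s₂) * c = (ℓ : Qb) ^ s₂ * ((ℓ : Qb) ^ s₁ * c) := by
        rw [pow_add]; ring
      rw [this]
      exact A.mul_mem _ _ (pow_mem hℓA _) (h₁ c hc)

/-- step 2: the same as step 1, with invariance under the decomposition group. -/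
theorem approx_exists_two (A : ValuationSubring Qb) (hA : A.LiesOverPrime ℓ)
    (L : IntermediateField ℚ Qb) [FiniteDimensional ℚ L] (hL : Normal ℚ L) :
    ∃ w ∈ L, w ≠ 0 ∧ (∀ δ ∈ A.decompositionSubgroup ℚ, δ w = w) ∧ w ∈ A ∧ w⁻¹ ∈ A ∧
      ∀ σ : GQ, σ ∉ A.decompositionSubgroup ℚ ⊔ L.fixingSubgroup → σ w ∈ A.nonunits := by
  classical
  obtain ⟨w₁, hw₁L, hw₁0, hw₁A, hw₁A', hconj, hnon⟩ := exists_approx_one A hA L hL
  have hfin : {y : Qb | ∃ δ ∈ A.decompositionSubgroup ℚ, δ w₁ = y}.Finite :=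
    (approx_conj_finite w₁).subset fun y ⟨δ, _, h⟩ => ⟨δ, h⟩
  set S : Finset Qb := hfin.toFinset with hSdef
  have hS : ∀ y, y ∈ S ↔ ∃ δ ∈ A.decompositionSubgroup ℚ, δ w₁ = y := fun y => by
    rw [hSdef, Set.Finite.mem_toFinset]
    rfl
  have hw₁S : w₁ ∈ S := (hS w₁).2 ⟨1, Subgroup.one_mem _, rfl⟩
  refine ⟨∏ y ∈ S, y, ?_, ?_, ?_, ?_, ?_, ?_⟩
  · refine prod_mem fun y hy => ?_
    obtain ⟨δ, -, rfl⟩ := (hS y).1 hy
    exact approx_map_mem L hL δ hw₁L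
  · refine Finset.prod_ne_zero_iff.2 fun y hy => ?_
    obtain ⟨δ, -, rfl⟩ := (hS y).1 hy
    exact (map_ne_zero δ).2 hw₁0
  · intro δ' hδ'
    have himg : S.image δ' = S := by
      ext y
      rw [Finset.mem_image]
      constructor
      · rintro ⟨y₀, hy₀, rfl⟩
        obtain ⟨δ, hδ, rfl⟩ := (hS y₀).1 hy₀
        exact (hS _).2 ⟨δ' * δ, Subgroup.mul_mem _ hδ' hδ, rfl⟩
      · intro hy
        obtain ⟨δ, hδ, rfl⟩ := (hS y).1 hy
        refine ⟨(δ'⁻¹ * δ) w₁, (hS _).2 ⟨δ'⁻¹ * δ, Subgroup.mul_mem _ (Subgroup.inv_mem _ hδ') hδ,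
          rfl⟩, ?_⟩
        rw [AlgEquiv.mul_apply]
        exact δ'.apply_symm_apply _
    rw [map_prod]
    conv_rhs => rw [← himg]
    rw [Finset.prod_image fun a _ b _ hab => δ'.injective hab]
  · refine prod_mem fun y hy => ?_
    obtain ⟨δ, -, rfl⟩ := (hS y).1 hy
    exact hconj δ
  · rw [← Finset.prod_inv_distrib]
    refine prod_mem fun y hy => ?_
    obtain ⟨δ, hδ, rfl⟩ := (hS y).1 hy
    rw [← map_inv₀]
    exact ((mem_decompositionSubgroup_iff A δ).1 hδ _).1 hw₁A'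
  · intro σ hσ
    rw [map_prod, ← Finset.mul_prod_erase S _ hw₁S]
    refine approx_mul_mem_nonunits A (hnon σ hσ) (prod_mem fun y hy => ?_)
    obtain ⟨δ, -, rfl⟩ := (hS y).1 (Finset.mem_of_mem_erase hy)
    exact hconj (σ * δ)

/-- **weak approximation.**
[`w₁` from step 1; `w₂ := ∏_{δ ∈ D_L} δ w₁` (product over the image `D_L` of `D` in the finite group
`Gal(L/ℚ)`; or over `(D ⊔ G_L) ⧸ G_L`) is fixed by `D`, is a unit at `A`, and `σ w₂ ∈ A.nonunits`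
for `σ ∉ D ⊔ G_L`; `w := w₂ ^ M`, `M` large (finitely many cosets `σ G_L`, finitely many `c`:
`exists_pow_mul_mem` bounds the denominators of `σ c`).] -/
theorem exists_approx (A : ValuationSubring Qb) (hA : A.LiesOverPrime ℓ)
    (L : IntermediateField ℚ Qb) [FiniteDimensional ℚ L] (hL : Normal ℚ L)
    (V : Finset Qb) (hV : ∀ c ∈ V, c ∈ L) :
    ∃ w ∈ L, w ≠ 0 ∧ (∀ δ ∈ A.decompositionSubgroup ℚ, δ w = w) ∧ w ∈ A ∧ w⁻¹ ∈ A ∧
      ∀ σ : GQ, σ ∉ A.decompositionSubgroup ℚ ⊔ L.fixingSubgroup →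
        ∀ c ∈ V, ∃ t ∈ A, σ (w * c) = ℓ * t := by
  obtain ⟨w₂, hw₂L, hw₂0, hfix, hw₂A, hw₂A', hnon⟩ := approx_exists_two A hA L hL
  have hZfin : {z : Qb | (∃ σ : GQ, σ w₂ = z) ∧ z ∈ A.nonunits}.Finite :=
    (approx_conj_finite w₂).subset fun z hz => hz.1
  obtain ⟨e, he⟩ := approx_exists_pow A hA hZfin fun z hz => hz.2
  have hCfin : (⋃ c ∈ V, {y : Qb | ∃ σ : GQ, σ c = y}).Finite :=
    Set.Finite.biUnion V.finite_toSet fun c _ => approx_conj_finite c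
  obtain ⟨s, hs⟩ := approx_exists_denom A hA hCfin
  refine ⟨w₂ ^ (e * (s + 1)), pow_mem hw₂L _, pow_ne_zero _ hw₂0, ?_, pow_mem hw₂A _, ?_, ?_⟩
  · intro δ hδ
    rw [map_pow, hfix δ hδ]
  · rw [← inv_pow]
    exact pow_mem hw₂A' _
  · intro σ hσ c hc
    obtain ⟨t, ht, hzt⟩ := he (σ w₂) ⟨⟨σ, rfl⟩, hnon σ hσ⟩
    have hc' : (ℓ : Qb) ^ s * σ c ∈ A :=
      hs (σ c) (Set.mem_biUnion (Finset.mem_coe.2 hc) ⟨σ, rfl⟩)
    refine ⟨t ^ (s + 1) * ((ℓ : Qb) ^ s * σ c), A.mul_mem _ _ (pow_mem ht _) hc', ?_⟩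
    rw [map_mul, map_pow, pow_mul, hzt]
    ring

end Fermat.Agent.S19
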