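import Fermat.Agent.S19.H.Conj

/-!
# S19-H : weak approximation, in the form needed for (H1)
-/

set_option autoImplicit false

open scoped Pointwise

noncomputable section

namespace Fermat.Agent.S19

variable {ℓ : ℕ} [Fact ℓ.Prime]

/-- the valuation subring `{x ∈ L | σ x ∈ A}` of `L`. -/
def approx1_AL (A : ValuationSubring Qb) (L : IntermediateField ℚ Qb) (σ : GQ) :
    ValuationSubring L :=
  A.comap (((σ : Qb ≃ₐ[ℚ] Qb) : Qb →+* Qb).comp (algebraMap L Qb))

theorem approx1_mem_AL (A : ValuationSubring Qb) (L : IntermediateField ℚ Qb) (σ : GQ) (x : L) :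
    x ∈ approx1_AL A L σ ↔ σ (x : Qb) ∈ A := Iff.rfl

theorem approx1_mem_nonunits_iff {K : Type*} [Field K] (A : ValuationSubring K) (x : K) :
    x ∈ A.nonunits ↔ x = 0 ∨ x⁻¹ ∉ A := by
  rw [ValuationSubring.mem_nonunits_iff, ← A.valuation_le_one_iff, map_inv₀]
  by_cases hx : x = 0
  · simp [hx]
  · have h0 : A.valuation x ≠ 0 := (Valuation.ne_zero_iff _).mpr hx
    rw [or_iff_right hx, not_le, one_lt_inv₀ (zero_lt_iff.mpr h0)]

theorem approx1_mem_nonunits_AL (A : ValuationSubring Qb) (L : IntermediateField ℚ Qb) (σ : GQ)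
    (x : L) : x ∈ (approx1_AL A L σ).nonunits ↔ σ (x : Qb) ∈ A.nonunits := by
  rw [approx1_mem_nonunits_iff, approx1_mem_nonunits_iff, approx1_mem_AL]
  have h1 : x = 0 ↔ σ (x : Qb) = 0 := by
    rw [map_eq_zero_iff σ σ.injective]
    exact (ZeroMemClass.coe_eq_zero).symm
  have h2 : σ ((x⁻¹ : L) : Qb) = (σ (x : Qb))⁻¹ := by
    rw [IntermediateField.coe_inv, map_inv₀]
  rw [h1, h2]

theorem approx1_liesOver (A : ValuationSubring Qb) (hA : A.LiesOverPrime ℓ)
    (L : IntermediateField ℚ Qb) (σ : GQ) : (approx1_AL A L σ).LiesOverPrime ℓ := by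
  unfold ValuationSubring.LiesOverPrime
  rw [approx1_mem_nonunits_AL]
  have : σ (((ℓ : L) : L) : Qb) = (ℓ : Qb) := by
    rw [show (((ℓ : L) : L) : Qb) = (ℓ : Qb) from map_natCast (algebraMap L Qb) ℓ, map_natCast]
  rw [this]
  exact hA

/-- a valuation subring over `ℓ` is determined by its prime ideal of the ring of integers. -/
theorem approx1_le_of_idealQ_eq {K : Type*} [Field K] [CharZero K] [Algebra ℚ K]
    [Algebra.IsAlgebraic ℚ K] (V W : ValuationSubring K) (hV : V.LiesOverPrime ℓ)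
    (h : Lib.Frobenius.idealQ V = Lib.Frobenius.idealQ W) {x : K} (hx : x ∈ V) : x ∈ W := by
  obtain ⟨b, s, hb, hs, hsn, hsx⟩ := Lib.Frobenius.exists_integral_fraction V Fact.out hV x hx
  have hs0 : s ≠ 0 := by
    rintro rfl
    exact hsn (by simp)
  have h1 : (⟨s, hs⟩ : integralClosure ℤ K) ∉ Lib.Frobenius.idealQ W := by
    rw [← h, Lib.Frobenius.mem_idealQ]
    exact hsn
  rw [Lib.Frobenius.mem_idealQ] at h1
  have h2 : s⁻¹ ∈ W :=
    Lib.Frobenius.inv_mem_of_not_mem_nonunits W (Lib.Frobenius.isIntegral_mem W hs) h1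
  have h3 : x = b * s⁻¹ := by
    rw [← hsx]
    field_simp
  rw [h3]
  exact mul_mem (Lib.Frobenius.isIntegral_mem W hb) h2

theorem approx1_isMaximal {K : Type*} [Field K] (V : ValuationSubring K)
    (hV : V.LiesOverPrime ℓ) : (Lib.Frobenius.idealQ V).IsMaximal := by
  haveI := Lib.Frobenius.idealQ_liesOver V Fact.out hV
  haveI : (Ideal.span {(ℓ : ℤ)}).IsMaximal :=
    Int.ideal_span_isMaximal_of_prime ℓ
  exact Ideal.IsMaximal.of_liesOver_isMaximal (Lib.Frobenius.idealQ V) (Ideal.span {(ℓ : ℤ)})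

/-- separation of `A` and of one conjugate. -/
theorem approx1_exists_sep (A : ValuationSubring Qb) (hA : A.LiesOverPrime ℓ)
    (L : IntermediateField ℚ Qb) (hL : Normal ℚ L) (σ : GQ)
    (hσ : σ ∉ A.decompositionSubgroup ℚ ⊔ L.fixingSubgroup) :
    ∃ x : L, IsIntegral ℤ x ∧ σ (x : Qb) ∈ A.nonunits ∧ (x : Qb) ∉ A.nonunits := by
  by_contra hcon
  push Not at hcon
  apply hσ
  have hle : Lib.Frobenius.idealQ (approx1_AL A L σ) ≤ Lib.Frobenius.idealQ (approx1_AL A L 1) := by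
    intro x hx
    rw [Lib.Frobenius.mem_idealQ, approx1_mem_nonunits_AL] at hx ⊢
    exact hcon x x.2 hx
  have heq := (approx1_isMaximal _ (approx1_liesOver A hA L σ)).eq_of_le
    (approx1_isMaximal _ (approx1_liesOver A hA L 1)).ne_top hle
  refine mem_sup_of_preserves L hL A hA σ fun x hx => ⟨fun h => ?_, fun h => ?_⟩
  · exact approx1_le_of_idealQ_eq (approx1_AL A L 1) (approx1_AL A L σ)
      (approx1_liesOver A hA L 1) heq.symm (x := ⟨x, hx⟩) h
  · exact approx1_le_of_idealQ_eq (approx1_AL A L σ) (approx1_AL A L 1)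
      (approx1_liesOver A hA L σ) heq (x := ⟨x, hx⟩) h

/-- step 1: an element of `L` which is a unit at `A` and a non-unit at every conjugate `σ⁻¹ • A`
which differs from `A` on `L`.
[The subrings `(σ⁻¹ • A) ∩ L` of `L` form a finite set (they are determined by the prime ideal
`nonunits ∩ 𝓞 L`, or: `σ ↦ (σ⁻¹ • A) ∩ L` factors through the finite group `GQ ⧸ G_L`).  The ideals
`𝔭_σ = {x ∈ integralClosure ℤ L | σ x ∈ A.nonunits}` are maximal, and `𝔭_σ ≠ 𝔭_1` if the rings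
differ (`Lib.Frobenius.exists_integral_fraction`); CRT / prime avoidance gives `w₁ ∈ ⋂ 𝔭_σ`,
`w₁ ∉ 𝔭_1`.] -/
theorem exists_approx_one (A : ValuationSubring Qb) (hA : A.LiesOverPrime ℓ)
    (L : IntermediateField ℚ Qb) [FiniteDimensional ℚ L] (hL : Normal ℚ L) :
    ∃ w ∈ L, w ≠ 0 ∧ w ∈ A ∧ w⁻¹ ∈ A ∧ (∀ σ : GQ, σ w ∈ A) ∧
      ∀ σ : GQ, σ ∉ A.decompositionSubgroup ℚ ⊔ L.fixingSubgroup → σ w ∈ A.nonunits := by
  classical
  haveI : Fintype (L →ₐ[ℚ] Qb) := Fintype.ofFinite _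
  let P : (L →ₐ[ℚ] Qb) → Prop := fun φ =>
    ∃ x : L, IsIntegral ℤ x ∧ φ x ∈ A.nonunits ∧ (x : Qb) ∉ A.nonunits
  let X : (L →ₐ[ℚ] Qb) → L := fun φ => if h : P φ then h.choose else 1
  have hXint : ∀ φ, IsIntegral ℤ (X φ) := by
    intro φ
    by_cases h : P φ
    · simp only [X, dif_pos h]
      exact h.choose_spec.1
    · simp only [X, dif_neg h]
      exact isIntegral_one
  have hXint' : ∀ φ, IsIntegral ℤ ((X φ : L) : Qb) := fun φ =>
    (hXint φ).map (IsScalarTower.toAlgHom ℤ L Qb)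
  have hXunit : ∀ φ, ((X φ : L) : Qb) ∉ A.nonunits := by
    intro φ
    by_cases h : P φ
    · simp only [X, dif_pos h]
      exact h.choose_spec.2.2
    · simp only [X, dif_neg h]
      rw [IntermediateField.coe_one, ValuationSubring.mem_nonunits_iff, map_one]
      exact lt_irrefl _
  have hXP : ∀ φ, P φ → φ (X φ) ∈ A.nonunits := by
    intro φ h
    simp only [X, dif_pos h]
    exact h.choose_spec.2.1
  have hcoe : ((∏ φ, X φ : L) : Qb) = ∏ φ, ((X φ : L) : Qb) :=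
    map_prod (algebraMap L Qb) _ _
  have hint : IsIntegral ℤ (∏ φ, ((X φ : L) : Qb)) := IsIntegral.prod _ fun φ _ => hXint' φ
  refine ⟨((∏ φ, X φ : L) : Qb), (∏ φ, X φ : L).2, ?_, ?_, ?_, ?_, ?_⟩
  · rw [hcoe]
    refine Finset.prod_ne_zero_iff.2 fun φ _ h0 => hXunit φ ?_
    rw [h0, ValuationSubring.mem_nonunits_iff, map_zero]
    exact zero_lt_one
  · rw [hcoe]
    exact Lib.Frobenius.isIntegral_mem A hint
  · rw [hcoe, ← Finset.prod_inv_distrib]
    exact prod_mem fun φ _ => Lib.Frobenius.inv_mem_of_not_mem_nonunits A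
      (Lib.Frobenius.isIntegral_mem A (hXint' φ)) (hXunit φ)
  · intro σ
    rw [hcoe]
    exact Lib.Frobenius.isIntegral_mem A (hint.map (σ : Qb →ₐ[ℚ] Qb).toRingHom.toIntAlgHom)
  · intro σ hσ
    let φ₀ : L →ₐ[ℚ] Qb := (σ : Qb →ₐ[ℚ] Qb).comp L.val
    have hP : P φ₀ := approx1_exists_sep A hA L hL σ hσ
    rw [hcoe, map_prod, ← Finset.mul_prod_erase Finset.univ _ (Finset.mem_univ φ₀)]
    refine Lib.Frobenius.nonunits_mul A (hXP φ₀ hP) (prod_mem fun φ _ => ?_)
    exact Lib.Frobenius.isIntegral_mem A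
      ((hXint' φ).map (σ : Qb →ₐ[ℚ] Qb).toRingHom.toIntAlgHom)

end Fermat.Agent.S19
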