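import Fermat.Agent.S19.H.Basis
import Fermat.Agent.S19.H.Local

/-!
# S19-H : (BAS) an integral basis for the functions equivariant under the decomposition group

The integral basis of `ED A ⊤ Y` over `ℤ_(ℓ)` is also an "`A`-basis" of `ED A D Y`: this is (H1) + (H2).
-/

set_option autoImplicit false

noncomputable section

namespace Fermat.Agent.S19

variable {Y : Type} [Fintype Y] [MulAction GQ Y] {ℓ : ℕ} [Fact ℓ.Prime]

/-- every element of `MG A Y` is an `A`-linear combination of the integral basis. -/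
theorem exists_coeff_of_mem_MG (A : ValuationSubring Qb) (hA : A.LiesOverPrime ℓ)
    (a : Y → (Y → Qb))
    (ha : ∀ f ∈ ED A ⊤ Y, ∃ c : Y → Rl ℓ, f = ∑ i, algebraMap (Rl ℓ) Qb (c i) • a i)
    (f : Y → Qb) (hf : f ∈ MG A Y) : ∃ c : Y → Qb, (∀ i, c i ∈ A) ∧ f = ∑ i, c i • a i := by
  unfold MG at hf
  induction hf using Submodule.span_induction with
  | mem x hx =>
    obtain ⟨c, hc⟩ := ha x hx
    exact ⟨fun i => algebraMap (Rl ℓ) Qb (c i), fun i => algebraMap_Rl_mem A hA (c i), hc⟩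
  | zero => exact ⟨fun _ => 0, fun _ => A.zero_mem, by simp⟩
  | add x y _ _ hx hy =>
    obtain ⟨c, hc, rfl⟩ := hx
    obtain ⟨d, hd, rfl⟩ := hy
    refine ⟨fun i => c i + d i, fun i => A.add_mem _ _ (hc i) (hd i), ?_⟩
    simp only [add_smul, Finset.sum_add_distrib]
  | smul r x _ hx =>
    obtain ⟨c, hc, rfl⟩ := hx
    refine ⟨fun i => (r : Qb) * c i, fun i => A.mul_mem _ _ r.2 (hc i), ?_⟩
    rw [Finset.smul_sum]
    refine Finset.sum_congr rfl fun i _ => ?_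
    rw [mul_smul]
    rfl

/-- **(BAS).** -/
theorem exists_basis_D (A : ValuationSubring Qb) (hA : A.LiesOverPrime ℓ) (hfin : FinLevel Y) :
    ∃ a : Y → (Y → Qb), (∀ i, a i ∈ ED A ⊤ Y) ∧ LinearIndependent Qb a ∧
      ∀ f ∈ ED A (A.decompositionSubgroup ℚ) Y,
        ∃ c : Y → Qb, (∀ i, c i ∈ A) ∧ f = ∑ i, c i • a i := by
  obtain ⟨a, ha1, ha2, ha3⟩ := exists_basis (ℓ := ℓ) A hA hfin
  exact ⟨a, ha1, ha2, fun f hf =>
    exists_coeff_of_mem_MG A hA a ha3 f (ED_subset_MG A hA hfin hf)⟩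

/-- `ED A ⊤ Y ⊆ ED A U Y`. -/
theorem ED_top_subset (A : ValuationSubring Qb) (U : Subgroup GQ) : ED A ⊤ Y ⊆ ED A U Y :=
  fun _ h => ⟨h.1, fun σ _ x => h.2 σ trivial x⟩

end Fermat.Agent.S19
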