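import Fermat.Agent.S19.H.Val
import Fermat.Agent.S55.DIC.Image1

/-!
# S19-H : valuation subrings of `Qb` with the same restriction to `L` are conjugate over `L`
-/

set_option autoImplicit false

open scoped Pointwise

noncomputable section

namespace Fermat.Agent.S19

variable {ℓ : ℕ} [Fact ℓ.Prime]

section general

variable {K : Type*} [Field K]

theorem conj_mem_nonunits_iff (A : ValuationSubring K) (x : K) :
    x ∈ A.nonunits ↔ x = 0 ∨ x⁻¹ ∉ A := by
  rw [ValuationSubring.mem_nonunits_iff]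
  by_cases hx : x = 0
  · simp [hx]
  · rw [← A.valuation_le_one_iff, map_inv₀, not_le]
    have h0 : A.valuation x ≠ 0 := (Valuation.ne_zero_iff _).2 hx
    constructor
    · intro h
      exact Or.inr ((one_lt_inv₀ (zero_lt_iff.2 h0)).2 h)
    · rintro (h | h)
      · exact absurd h hx
      · exact (one_lt_inv₀ (zero_lt_iff.2 h0)).1 h

variable [Algebra ℚ K]

theorem conj_nonunits_iff (L : IntermediateField ℚ K) (A B : ValuationSubring K)
    (h : ∀ x ∈ L, x ∈ A ↔ x ∈ B) {x : K} (hx : x ∈ L) : x ∈ A.nonunits ↔ x ∈ B.nonunits := by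
  rw [conj_mem_nonunits_iff, conj_mem_nonunits_iff, h x⁻¹ (L.inv_mem hx)]

variable [IsAlgClosure ℚ K] [CharZero K]

/-- transport of membership along an automorphism matching the integral non-units. -/
theorem conj_map_mem (A B : ValuationSubring K) (hA : A.LiesOverPrime ℓ) (τ : K ≃ₐ[ℚ] K)
    (hτ : ∀ s : K, IsIntegral ℤ s → s ∉ A.nonunits → τ s ∉ B.nonunits) {x : K} (hx : x ∈ A) :
    τ x ∈ B := by
  obtain ⟨b, s, hb, hs, hsn, hsx⟩ :=
    Lib.Frobenius.exists_integral_fraction A (Fact.out : ℓ.Prime) hA x hx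
  have hs0 : s ≠ 0 := by
    rintro rfl
    exact hsn (by simp)
  have hτs : IsIntegral ℤ (τ s) := hs.map τ
  have hτb : IsIntegral ℤ (τ b) := hb.map τ
  have h2 : (τ s)⁻¹ ∈ B :=
    Lib.Frobenius.inv_mem_of_not_mem_nonunits B (Lib.Frobenius.isIntegral_mem B hτs) (hτ s hs hsn)
  have h3 : τ x = τ b * (τ s)⁻¹ := by
    rw [← hsx, map_mul]
    have : τ s ≠ 0 := by simpa using hs0
    field_simp
  rw [h3]
  exact mul_mem (Lib.Frobenius.isIntegral_mem B hτb) h2

/-- `Gal(K/L)` acts transitively on the primes of `ℤ̄` with the same restriction to `L`. -/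
theorem conj_exists_smul (L : IntermediateField ℚ K) (P Q : Ideal (integralClosure ℤ K))
    [P.IsPrime] [Q.IsPrime]
    (hPQ : ∀ b : integralClosure ℤ K, (b : K) ∈ L → (b ∈ P ↔ b ∈ Q)) :
    ∃ g : K ≃ₐ[L] K, Q = g • P := by
  have hnor : Normal ℚ K := IsAlgClosure.normal ℚ K
  have hgal : IsGalois ℚ K := ⟨⟩
  have hgalL : IsGalois L K := IsGalois.tower_top_intermediateField L
  have hcomm : SMulCommClass (K ≃ₐ[L] K)
      (FixedPoints.subalgebra ℤ (integralClosure ℤ K) (K ≃ₐ[L] K)) (integralClosure ℤ K) := by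
    refine ⟨fun g a b => ?_⟩
    change g • ((a : integralClosure ℤ K) * b) = (a : integralClosure ℤ K) * g • b
    rw [smul_mul', a.2 g]
  have hinv : Algebra.IsInvariant (FixedPoints.subalgebra ℤ (integralClosure ℤ K) (K ≃ₐ[L] K))
      (integralClosure ℤ K) (K ≃ₐ[L] K) := ⟨fun b hb => ⟨⟨b, hb⟩, rfl⟩⟩
  have hunder : P.under (FixedPoints.subalgebra ℤ (integralClosure ℤ K) (K ≃ₐ[L] K)) =
      Q.under (FixedPoints.subalgebra ℤ (integralClosure ℤ K) (K ≃ₐ[L] K)) := by
    ext a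
    rw [Ideal.under_def, Ideal.under_def, Ideal.mem_comap, Ideal.mem_comap]
    apply hPQ
    have h1 : (((a : integralClosure ℤ K)) : K) ∈ Set.range (algebraMap L K) := by
      rw [InfiniteGalois.mem_range_algebraMap_iff_fixed]
      intro σ
      exact congrArg Subtype.val (a.2 σ)
    obtain ⟨y, hy⟩ := h1
    change (((a : integralClosure ℤ K)) : K) ∈ L
    rw [← hy]
    exact y.2
  let _ : TopologicalSpace (integralClosure ℤ K) := ⊥
  have : DiscreteTopology (integralClosure ℤ K) := ⟨rfl⟩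
  have : ContinuousSMul (K ≃ₐ[L] K) (integralClosure ℤ K) := by
    rw [continuousSMul_iff_stabilizer_isOpen]
    intro b
    convert stabilizer_isOpen_of_isIntegral (K := L) (b : K) using 2
    ext σ
    simp only [MulAction.mem_stabilizer_iff]
    exact Subtype.ext_iff
  exact Algebra.IsInvariant.exists_smul_of_under_eq_of_profinite
    (A := FixedPoints.subalgebra ℤ (integralClosure ℤ K) (K ≃ₐ[L] K))
    (G := K ≃ₐ[L] K) P Q hunder

theorem conj_exists_fixing_conj (L : IntermediateField ℚ K) (A B : ValuationSubring K)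
    (hA : A.LiesOverPrime ℓ) (h : ∀ x ∈ L, x ∈ A ↔ x ∈ B) :
    ∃ g ∈ L.fixingSubgroup, ∀ x, x ∈ A ↔ g x ∈ B := by
  have hB : B.LiesOverPrime ℓ := (conj_nonunits_iff L A B h (natCast_mem L ℓ)).1 hA
  obtain ⟨g, hg⟩ := conj_exists_smul L (Lib.Frobenius.idealQ A) (Lib.Frobenius.idealQ B)
    (fun b hb => by
      rw [Lib.Frobenius.mem_idealQ, Lib.Frobenius.mem_idealQ]
      exact conj_nonunits_iff L A B h hb)
  have key : ∀ s : integralClosure ℤ K, (s : K) ∈ A.nonunits ↔ g (s : K) ∈ B.nonunits := by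
    intro s
    rw [← Lib.Frobenius.mem_idealQ A s, ← Ideal.smul_mem_pointwise_smul_iff (a := g), ← hg,
      Lib.Frobenius.mem_idealQ]
    rfl
  refine ⟨g.restrictScalars ℚ, ?_, fun x => ⟨fun hx => ?_, fun hx => ?_⟩⟩
  · rw [IntermediateField.mem_fixingSubgroup_iff]
    intro x hx
    exact g.commutes ⟨x, hx⟩
  · exact conj_map_mem A B hA (g.restrictScalars ℚ)
      (fun s hs hsn hc => hsn ((key ⟨s, hs⟩).2 hc)) hx
  · have h1 := conj_map_mem B A hB (g.restrictScalars ℚ)⁻¹ (fun s hs hsn hc => hsn (by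
      have h2 := (key ⟨(g.restrictScalars ℚ)⁻¹ s, hs.map (g.restrictScalars ℚ)⁻¹⟩).1 hc
      have h3 : g ((g.restrictScalars ℚ)⁻¹ s) = s :=
        (g.restrictScalars ℚ).apply_symm_apply s
      change g ((g.restrictScalars ℚ)⁻¹ s) ∈ B.nonunits at h2
      rwa [h3] at h2)) hx
    have h4 : (g.restrictScalars ℚ)⁻¹ ((g.restrictScalars ℚ) x) = x :=
      (g.restrictScalars ℚ).symm_apply_apply x
    rwa [h4] at h1

end general

/-- [copy the proof of `Fermat.Agent.S55.DIC.image1_exists_conj` (base `ℚ`) with base `L`: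
`Algebra.IsInvariant (integralClosure ℤ L) (integralClosure ℤ Qb) (Qb ≃ₐ[L] Qb)` and
`Algebra.IsInvariant.exists_smul_of_under_eq_of_profinite`; `Lib.Frobenius.idealQ`,
`Lib.Frobenius.exists_integral_fraction`.] -/
theorem exists_fixing_conj (L : IntermediateField ℚ Qb) (A B : ValuationSubring Qb)
    (hA : A.LiesOverPrime ℓ) (h : ∀ x ∈ L, x ∈ A ↔ x ∈ B) :
    ∃ g ∈ L.fixingSubgroup, ∀ x, x ∈ A ↔ g x ∈ B := by
  have halg : Algebra.IsAlgebraic ℚ Qb := AlgebraicClosure.isAlgebraic ℚ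
  have hcl : IsAlgClosure ℚ Qb := ⟨inferInstance, halg⟩
  exact conj_exists_fixing_conj L A B hA h

/-- if `σ` preserves `A ∩ L` (`L` normal) then `σ ∈ D · G_L`. -/
theorem mem_sup_of_preserves (L : IntermediateField ℚ Qb) (hL : Normal ℚ L)
    (A : ValuationSubring Qb) (hA : A.LiesOverPrime ℓ) (σ : GQ)
    (h : ∀ x ∈ L, x ∈ A ↔ σ x ∈ A) :
    σ ∈ A.decompositionSubgroup ℚ ⊔ L.fixingSubgroup := by
  have hB : ∀ x, x ∈ σ⁻¹ • A ↔ σ x ∈ A := by
    intro x
    rw [mem_smul_iff, inv_inv]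
  obtain ⟨g, hg, hgx⟩ := exists_fixing_conj L A (σ⁻¹ • A) hA
    (fun x hx => (h x hx).trans (hB x).symm)
  have h1 : σ * g ∈ A.decompositionSubgroup ℚ := by
    rw [mem_decompositionSubgroup_iff]
    intro x
    rw [hgx x, hB]
    rfl
  have h2 : σ = σ * g * g⁻¹ := by group
  rw [h2]
  exact Subgroup.mul_mem_sup h1 (inv_mem hg)

end Fermat.Agent.S19
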