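import Mathlib
import Fermat.Prelude.Def_GaloisRep_Flat
import Fermat.Prelude.Def_FLTPrelim_Ramification

/-!
# S19-H : definitions for the flatness criterion

`Qb = ℚ̄`, `GQ = Gal(ℚ̄/ℚ)`, `Rl ℓ = ℤ_(ℓ)`, `A` a valuation subring of `Qb` over `ℓ`.

* `FlatModel ℓ G act` : the conclusion of S19 / S32 for a finite `GQ`-module `G`.
* `FinLevel X` : the action of `GQ` on `X` factors through a number field.
* `ED A U X` : the `A`-valued functions on `X` which are equivariant under the subgroup `U`.
* `MD A X` : the `A`-span of `ED A D X`, `D` the decomposition group of `A`.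
-/

set_option autoImplicit false

open scoped Pointwise

noncomputable section

namespace Fermat.Agent.S19

abbrev Qb : Type := AlgebraicClosure ℚ
abbrev GQ : Type := Qb ≃ₐ[ℚ] Qb
abbrev Rl (ℓ : ℕ) : Type := ↥(GaloisRep.ratLocalizedAt ℓ)

/-- the conclusion of S19 / S32: `G` is, `GQ`-equivariantly, the group of `Qb`-points of a finite
flat commutative group scheme over `ℤ_(ℓ)`. -/
def FlatModel (ℓ : ℕ) (G : Type) [AddCommGroup G] (act : GQ → G → G) : Prop :=
  ∃ (H : Type) (_ : CommRing H) (_ : HopfAlgebra (Rl ℓ) H),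
    Module.Finite (Rl ℓ) H ∧ Module.Flat (Rl ℓ) H ∧ Coalgebra.IsCocomm (Rl ℓ) H ∧
    ∃ e : WithConv (H →ₐ[Rl ℓ] Qb) ≃ G,
      (∀ f g, e (f * g) = e f + e g) ∧
      ∀ (σ : GQ) (f g : WithConv (H →ₐ[Rl ℓ] Qb)), (∀ h : H, g h = σ (f h)) → e g = act σ (e f)

/-- the action factors through a number field. -/
def FinLevel (X : Type) [MulAction GQ X] : Prop :=
  ∃ L : IntermediateField ℚ Qb, FiniteDimensional ℚ L ∧ ∀ σ ∈ L.fixingSubgroup, ∀ x : X, σ • x = x

/-- `A`-valued functions on `X`, equivariant under `U`. -/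
def ED (A : ValuationSubring Qb) (U : Subgroup GQ) (X : Type) [MulAction GQ X] : Set (X → Qb) :=
  {a | (∀ x, a x ∈ A) ∧ ∀ σ ∈ U, ∀ x, a (σ • x) = σ (a x)}

/-- the `A`-span of the functions which are equivariant under the decomposition group. -/
def MD (A : ValuationSubring Qb) (X : Type) [MulAction GQ X] : Submodule A (X → Qb) :=
  Submodule.span A (ED A (A.decompositionSubgroup ℚ) X)

/-- the `A`-span of the functions which are equivariant under the whole Galois group. -/
def MG (A : ValuationSubring Qb) (X : Type) [MulAction GQ X] : Submodule A (X → Qb) :=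
  Submodule.span A (ED A ⊤ X)

end Fermat.Agent.S19
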