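import Fermat.Agent.S19.H.Defs

/-!
# S19-H : Galois descent for functions on a finite `GQ`-set
-/

set_option autoImplicit false

noncomputable section

namespace Fermat.Agent.S19

variable {X : Type} [Fintype X] [MulAction GQ X]

/-- auxiliary: every embedding of a subfield extends to an automorphism. -/
theorem descent2_exists_ext (L : IntermediateField ℚ Qb) (τ : L →ₐ[ℚ] Qb) :
    ∃ σ : GQ, ∀ c : L, σ (c : Qb) = τ c := by
  have halg : Algebra.IsAlgebraic ℚ Qb := AlgebraicClosure.isAlgebraic ℚ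
  have hcl : IsAlgClosure ℚ Qb := ⟨inferInstance, halg⟩
  have hnor : Normal ℚ Qb := IsAlgClosure.normal ℚ Qb
  let ψ : Qb →ₐ[ℚ] Qb := τ.liftNormal Qb
  refine ⟨AlgEquiv.ofBijective ψ (Algebra.IsAlgebraic.algHom_bijective ψ), fun x => ?_⟩
  exact τ.liftNormal_commutes Qb x

omit [Fintype X] in
/-- auxiliary: `σ • x` depends only on the restriction of `σ` to `L`. -/
theorem descent2_smul_eq {L : IntermediateField ℚ Qb}
    (hL : ∀ σ ∈ L.fixingSubgroup, ∀ x : X, σ • x = x) {σ σ' : GQ}
    (h : ∀ c : L, σ (c : Qb) = σ' (c : Qb)) (x : X) : σ • x = σ' • x := by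
  have hmem : σ'⁻¹ * σ ∈ L.fixingSubgroup := by
    rw [IntermediateField.mem_fixingSubgroup_iff]
    intro c hc
    show σ'⁻¹ (σ c) = c
    rw [h ⟨c, hc⟩]
    exact σ'.symm_apply_apply c
  have h2 := hL _ hmem x
  rw [mul_smul, inv_smul_eq_iff] at h2
  exact h2

/-- auxiliary: composition with `ρ` permutes the embeddings. -/
def descent2_equiv (L : IntermediateField ℚ Qb) (ρ : GQ) : (L →ₐ[ℚ] Qb) ≃ (L →ₐ[ℚ] Qb) where
  toFun τ := (ρ : Qb →ₐ[ℚ] Qb).comp τ
  invFun τ := (ρ.symm : Qb →ₐ[ℚ] Qb).comp τ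
  left_inv τ := by
    refine AlgHom.ext fun c => ?_
    exact ρ.symm_apply_apply (τ c)
  right_inv τ := by
    refine AlgHom.ext fun c => ?_
    exact ρ.apply_symm_apply (τ c)

omit [Fintype X] in
open Classical in
/-- auxiliary: the trace-like functions are equivariant. -/
theorem descent2_equivariant {L : IntermediateField ℚ Qb} [FiniteDimensional ℚ L]
    (hL : ∀ σ ∈ L.fixingSubgroup, ∀ x : X, σ • x = x) (ext : (L →ₐ[ℚ] Qb) → GQ)
    (hext : ∀ (τ : L →ₐ[ℚ] Qb) (c : L), ext τ (c : Qb) = τ c) (x₀ : X) (c : L) :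
    (fun x => ∑ τ : L →ₐ[ℚ] Qb, if ext τ • x₀ = x then τ c else 0) ∈
      {a : X → Qb | ∀ (σ : GQ) x, a (σ • x) = σ (a x)} := by
  intro ρ x
  show (∑ τ : L →ₐ[ℚ] Qb, if ext τ • x₀ = ρ • x then τ c else 0)
    = ρ (∑ τ : L →ₐ[ℚ] Qb, if ext τ • x₀ = x then τ c else 0)
  rw [map_sum, ← Equiv.sum_comp (descent2_equiv L ρ)]
  refine Finset.sum_congr rfl fun τ _ => ?_
  have h1 : ext (descent2_equiv L ρ τ) • x₀ = ρ • ext τ • x₀ := by
    rw [← mul_smul]
    refine descent2_smul_eq hL (fun d => ?_) x₀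
    rw [hext]
    show ρ (τ d) = ρ (ext τ d)
    rw [hext]
  rw [h1, apply_ite ρ, map_zero]
  have h2 : (ρ • ext τ • x₀ = ρ • x) ↔ (ext τ • x₀ = x) := smul_left_cancel_iff ρ
  simp only [h2]
  rfl

/-- the equivariant functions span.
[fix `x₀`; `L` from `FinLevel`, wlog normal; `K := ` the fixed field in `L` of the stabiliser; for
`c ∈ L` fixed by the stabiliser `a_c (σ x₀) := σ c`, `0` outside the orbit, is well defined and
equivariant.  The points of the orbit correspond to distinct embeddings of `K`, which are linearly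
independent (Dedekind, `linearIndependent_monoidHom`), so the `a_c` span the functions supported on
the orbit.  ALTERNATIVE without `K`: for `c ∈ L` and `x₀` put
`a (x) := ∑_{σ ∈ Gal(L/ℚ), σ x₀ = x} σ c`; independence of the characters `σ` of `L`.] -/
theorem span_equivariant_eq_top (hfin : FinLevel X) :
    Submodule.span Qb {a : X → Qb | ∀ (σ : GQ) x, a (σ • x) = σ (a x)} = ⊤ := by
  classical
  obtain ⟨L, hLfin, hL⟩ := hfin
  by_contra hne
  obtain ⟨f, hf0, hf⟩ := Submodule.exists_le_ker_of_lt_top _ (lt_top_iff_ne_top.2 hne)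
  apply hf0
  choose ext hext using descent2_exists_ext L
  have key : ∀ x₀ : X, f (Pi.single x₀ 1) = 0 := by
    intro x₀
    have hμ : ∀ c : L, ∑ τ : L →ₐ[ℚ] Qb, f (Pi.single (ext τ • x₀) 1) * τ c = 0 := by
      intro c
      have h0 := hf (Submodule.subset_span (descent2_equivariant hL ext hext x₀ c))
      rw [LinearMap.mem_ker] at h0
      have e : (fun x => ∑ τ : L →ₐ[ℚ] Qb, if ext τ • x₀ = x then τ c else 0)
          = ∑ τ : L →ₐ[ℚ] Qb, τ c • (Pi.single (ext τ • x₀) (1 : Qb) : X → Qb) := by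
        funext x
        rw [Finset.sum_apply]
        refine Finset.sum_congr rfl fun τ _ => ?_
        rw [Pi.smul_apply, Pi.single_apply, smul_eq_mul, mul_ite, mul_one, mul_zero]
        by_cases h : ext τ • x₀ = x
        · rw [if_pos h, if_pos h.symm]
        · rw [if_neg h, if_neg fun h' => h h'.symm]
      rw [e, map_sum] at h0
      rw [← h0]
      refine Finset.sum_congr rfl fun τ _ => ?_
      rw [map_smul, smul_eq_mul, mul_comm]
    have hli := linearIndependent_toLinearMap ℚ L Qb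
    rw [Fintype.linearIndependent_iff] at hli
    have h1 := hli (fun τ => f (Pi.single (ext τ • x₀) 1)) (by
      refine LinearMap.ext fun c => ?_
      rw [LinearMap.sum_apply, LinearMap.zero_apply, ← hμ c]
      rfl) L.val
    have h2 : ext L.val • x₀ = x₀ := by
      have h3 := descent2_smul_eq hL (σ := ext L.val) (σ' := 1) (fun c => hext L.val c) x₀
      rwa [one_smul] at h3
    rwa [h2] at h1
  refine LinearMap.pi_ext fun x₀ c => ?_
  have e : (Pi.single x₀ c : X → Qb) = c • Pi.single x₀ (1 : Qb) := by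
    rw [← Pi.single_smul, smul_eq_mul, mul_one]
  rw [e, map_smul, key x₀, smul_zero, LinearMap.zero_apply]

end Fermat.Agent.S19
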