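import Mathlib

/-!
# S19-H : Hopf algebras of functions on a finite abelian group (abstract, Mathlib only)

`R → Ω` an injective map from a commutative ring to a field, `G` a finite abelian group,
`Hf` an `R`-subalgebra of `G → Ω` which has an `R`-basis that is an `Ω`-basis of `G → Ω`, and is
stable under `f ↦ f(x+y)`, `f ↦ f(0)`, `f ↦ f(-x)` (see `Data`).  Then `Hf` is a cocommutative
Hopf algebra over `R`, and its `R`-algebra homomorphisms to `Ω` are the evaluations at the points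
of `G`, the convolution product being the addition of `G`.

All the axioms are proved by evaluating: `j₂ : Hf ⊗ Hf → (G × G → Ω)` and
`j₃ : (Hf ⊗ Hf) ⊗ Hf → ((G × G) × G → Ω)` are injective.
-/

set_option autoImplicit false

open TensorProduct

noncomputable section

namespace Fermat.Agent.S19.FunHopf

variable {R Ω G : Type} [CommRing R] [Field Ω] [Algebra R Ω] [AddCommGroup G] [Fintype G]

/-- pull back of functions. -/
def pb {X Y : Type} (f : X → Y) : (Y → Ω) →ₐ[R] (X → Ω) :=
  AlgHom.pi (fun x => Pi.evalAlgHom R (fun _ : Y => Ω) (f x))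

@[simp] theorem pb_apply {X Y : Type} (f : X → Y) (a : Y → Ω) (x : X) :
    pb (R := R) f a x = a (f x) := rfl

variable (Hf : Subalgebra R (G → Ω))

/-- `f ⊗ g ↦ ((x,y) ↦ f x * g y)`. -/
def j₂ : Hf ⊗[R] Hf →ₐ[R] (G × G → Ω) :=
  Algebra.TensorProduct.productMap ((pb Prod.fst).comp Hf.val) ((pb Prod.snd).comp Hf.val)

/-- `(f ⊗ g) ⊗ h ↦ (((x,y),z) ↦ f x * g y * h z)`. -/
def j₃ : (Hf ⊗[R] Hf) ⊗[R] Hf →ₐ[R] ((G × G) × G → Ω) :=
  Algebra.TensorProduct.productMap ((pb Prod.fst).comp (j₂ Hf)) ((pb Prod.snd).comp Hf.val)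

/-- the hypotheses. -/
structure Data : Prop where
  inj : Function.Injective (algebraMap R Ω)
  basis : ∃ (ι : Type) (_ : Fintype ι) (b : Module.Basis ι R Hf),
    LinearIndependent Ω (fun i => ((b i : Hf) : G → Ω)) ∧
      Submodule.span Ω (Set.range fun i => ((b i : Hf) : G → Ω)) = ⊤
  comul : ∀ f : Hf, pb (R := R) (fun p : G × G => p.1 + p.2) (f : G → Ω) ∈ (j₂ Hf).range
  counit : ∀ f : Hf, (f : G → Ω) 0 ∈ (algebraMap R Ω).range
  anti : ∀ f : Hf, (fun x => (f : G → Ω) (-x)) ∈ Hf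

variable {Hf}

@[simp] theorem j₂_tmul (f g : Hf) (p : G × G) :
    j₂ Hf (f ⊗ₜ g) p = (f : G → Ω) p.1 * (g : G → Ω) p.2 := by
  rw [j₂, Algebra.TensorProduct.productMap_apply_tmul]
  rfl

@[simp] theorem j₃_tmul (t : Hf ⊗[R] Hf) (h : Hf) (p : (G × G) × G) :
    j₃ Hf (t ⊗ₜ h) p = j₂ Hf t p.1 * (h : G → Ω) p.2 := by
  rw [j₃, Algebra.TensorProduct.productMap_apply_tmul]
  rfl

/-- `φ` maps some finite `R`-basis to an `Ω`-linearly independent family. -/
def FunHopf_Good {M X : Type} [AddCommMonoid M] [Module R M] (φ : M →ₗ[R] (X → Ω)) : Prop :=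
  ∃ (ι : Type) (_ : Fintype ι) (b : Module.Basis ι R M), LinearIndependent Ω (fun i => φ (b i))

theorem FunHopf_Good.injective {M X : Type} [AddCommMonoid M] [Module R M]
    {φ : M →ₗ[R] (X → Ω)} (h : FunHopf_Good φ) (hinj : Function.Injective (algebraMap R Ω)) :
    Function.Injective φ := by
  obtain ⟨ι, _, b, hb⟩ := h
  have hR : LinearIndependent R (fun i => φ (b i)) := by
    refine hb.restrict_scalars ?_
    intro r s hrs
    apply hinj
    simpa [Algebra.smul_def] using hrs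
  rw [linearIndependent_iff_injective_finsuppLinearCombination] at hR
  have hφ : ∀ m, φ m = Finsupp.linearCombination R (fun i => φ (b i)) (b.repr m) := by
    intro m
    conv_lhs => rw [← b.linearCombination_repr m]
    rw [Finsupp.apply_linearCombination]
    rfl
  intro m m' hmm
  rw [hφ, hφ] at hmm
  exact b.repr.injective (hR hmm)

theorem FunHopf_linearIndependent_mul {X Y ι κ : Type} [Fintype ι] [Fintype κ]
    {f : ι → X → Ω} {g : κ → Y → Ω} (hf : LinearIndependent Ω f) (hg : LinearIndependent Ω g) :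
    LinearIndependent Ω (fun (ij : ι × κ) (p : X × Y) => f ij.1 p.1 * g ij.2 p.2) := by
  rw [Fintype.linearIndependent_iff] at hf hg ⊢
  intro c hc ij
  obtain ⟨i, j⟩ := ij
  refine hg (fun j => c (i, j)) ?_ j
  funext y
  refine hf (fun i => (∑ j, c (i, j) • g j) y) ?_ i
  funext x
  have := congrFun hc (x, y)
  rw [Fintype.sum_prod_type] at this
  simp only [Finset.sum_apply, Pi.smul_apply, smul_eq_mul, Pi.zero_apply] at this ⊢
  rw [← this]
  refine Finset.sum_congr rfl fun i _ => ?_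
  rw [Finset.sum_mul]
  refine Finset.sum_congr rfl fun j _ => ?_
  ring

theorem FunHopf_Good.tensor {M N X Y : Type} [AddCommMonoid M] [Module R M] [AddCommMonoid N]
    [Module R N] {φ : M →ₗ[R] (X → Ω)} {ψ : N →ₗ[R] (Y → Ω)} (hφ : FunHopf_Good φ)
    (hψ : FunHopf_Good ψ) {χ : M ⊗[R] N →ₗ[R] (X × Y → Ω)}
    (hχ : ∀ m n p, χ (m ⊗ₜ n) p = φ m p.1 * ψ n p.2) : FunHopf_Good χ := by
  obtain ⟨ι, _, b, hb⟩ := hφ
  obtain ⟨κ, _, c, hc⟩ := hψ
  refine ⟨ι × κ, inferInstance, b.tensorProduct c, ?_⟩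
  convert FunHopf_linearIndependent_mul hb hc using 1
  funext ij p
  rw [Module.Basis.tensorProduct_apply', hχ]

theorem FunHopf_good_val (hd : Data Hf) : FunHopf_Good (Hf.val.toLinearMap) := by
  obtain ⟨ι, hι, b, hb, -⟩ := hd.basis
  exact ⟨ι, hι, b, hb⟩

theorem FunHopf_good_j₂ (hd : Data Hf) : FunHopf_Good (j₂ Hf).toLinearMap :=
  (FunHopf_good_val hd).tensor (FunHopf_good_val hd) (fun f g p => j₂_tmul f g p)

theorem FunHopf_good_j₃ (hd : Data Hf) : FunHopf_Good (j₃ Hf).toLinearMap :=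
  (FunHopf_good_j₂ hd).tensor (FunHopf_good_val hd) (fun t h p => j₃_tmul t h p)

/-- [the basis `b i ⊗ b j` is mapped to the functions `b i x * b j y`, which are linearly
independent over `Ω`, a fortiori over `R`.] -/
theorem j₂_injective (hd : Data Hf) : Function.Injective (j₂ Hf) := by
  exact (FunHopf_good_j₂ hd).injective hd.inj

theorem j₃_injective (hd : Data Hf) : Function.Injective (j₃ Hf) := by
  exact (FunHopf_good_j₃ hd).injective hd.inj

/-- the comultiplication. -/
def comulHom (hd : Data Hf) : Hf →ₐ[R] Hf ⊗[R] Hf :=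
  ((AlgEquiv.ofInjective (j₂ Hf) (j₂_injective hd)).symm : (j₂ Hf).range →ₐ[R] Hf ⊗[R] Hf).comp
    (((pb (fun p : G × G => p.1 + p.2)).comp Hf.val).codRestrict (j₂ Hf).range hd.comul)

theorem j₂_comulHom (hd : Data Hf) (f : Hf) (p : G × G) :
    j₂ Hf (comulHom hd f) p = (f : G → Ω) (p.1 + p.2) := by
  have h : j₂ Hf (comulHom hd f) = pb (R := R) (fun p : G × G => p.1 + p.2) (f : G → Ω) := by
    have := congrArg Subtype.val ((AlgEquiv.ofInjective (j₂ Hf) (j₂_injective hd)).apply_symm_apply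
      ((((pb (fun p : G × G => p.1 + p.2)).comp Hf.val).codRestrict (j₂ Hf).range hd.comul) f))
    rw [AlgEquiv.ofInjective_apply] at this
    exact this
  rw [h, pb_apply]

/-- the counit. -/
def counitHom (hd : Data Hf) : Hf →ₐ[R] R :=
  ((AlgEquiv.ofInjective (Algebra.ofId R Ω) hd.inj).symm :
      (Algebra.ofId R Ω).range →ₐ[R] R).comp
    (((Pi.evalAlgHom R (fun _ : G => Ω) 0).comp Hf.val).codRestrict (Algebra.ofId R Ω).range
      (fun f => hd.counit f))

theorem algebraMap_counitHom (hd : Data Hf) (f : Hf) :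
    algebraMap R Ω (counitHom hd f) = (f : G → Ω) 0 := by
  have := congrArg Subtype.val ((AlgEquiv.ofInjective (Algebra.ofId R Ω) hd.inj).apply_symm_apply
    ((((Pi.evalAlgHom R (fun _ : G => Ω) 0).comp Hf.val).codRestrict (Algebra.ofId R Ω).range
      (fun f => hd.counit f)) f))
  exact this

/-- the antipode. -/
def antiLin (hd : Data Hf) : Hf →ₗ[R] Hf where
  toFun f := ⟨fun x => (f : G → Ω) (-x), hd.anti f⟩
  map_add' _ _ := rfl
  map_smul' _ _ := rfl

end Fermat.Agent.S19.FunHopf
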