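import Fermat.Agent.S19.H.FunHopf

/-!
# S19-H : Hopf algebras of functions: the axioms (evaluate with `j₂`, `j₃`)
-/

set_option autoImplicit false

open TensorProduct

noncomputable section

namespace Fermat.Agent.S19.FunHopf

variable {R Ω G : Type} [CommRing R] [Field Ω] [Algebra R Ω] [AddCommGroup G] [Fintype G]
variable {Hf : Subalgebra R (G → Ω)}

theorem FunHopfAx_j₃_map_left (hd : Data Hf) (t : Hf ⊗[R] Hf) (p : (G × G) × G) :
    j₃ Hf (Algebra.TensorProduct.map (comulHom hd) (.id R Hf) t) p =
      j₂ Hf t (p.1.1 + p.1.2, p.2) := by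
  induction t using TensorProduct.induction_on with
  | zero => rw [map_zero, map_zero, map_zero]; rfl
  | tmul a b =>
    rw [Algebra.TensorProduct.map_tmul, j₃_tmul, j₂_comulHom, j₂_tmul]
    rfl
  | add s t hs ht => rw [map_add, map_add, map_add, Pi.add_apply, Pi.add_apply, hs, ht]

theorem FunHopfAx_j₃_assoc_symm (a : Hf) (s : Hf ⊗[R] Hf) (p : (G × G) × G) :
    j₃ Hf ((Algebra.TensorProduct.assoc R R R Hf Hf Hf).symm (a ⊗ₜ s)) p =
      (a : G → Ω) p.1.1 * j₂ Hf s (p.1.2, p.2) := by
  induction s using TensorProduct.induction_on with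
  | zero => rw [TensorProduct.tmul_zero, map_zero, map_zero, map_zero]; simp
  | tmul c d =>
    rw [Algebra.TensorProduct.assoc_symm_tmul, j₃_tmul, j₂_tmul, j₂_tmul, mul_assoc]
  | add s t hs ht =>
    rw [TensorProduct.tmul_add, map_add, map_add, map_add, Pi.add_apply, Pi.add_apply, hs, ht,
      mul_add]

theorem FunHopfAx_j₃_map_right (hd : Data Hf) (t : Hf ⊗[R] Hf) (p : (G × G) × G) :
    j₃ Hf ((Algebra.TensorProduct.assoc R R R Hf Hf Hf).symm
      (Algebra.TensorProduct.map (.id R Hf) (comulHom hd) t)) p =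
      j₂ Hf t (p.1.1, p.1.2 + p.2) := by
  induction t using TensorProduct.induction_on with
  | zero => rw [map_zero, map_zero, map_zero, map_zero]; rfl
  | tmul a b =>
    rw [Algebra.TensorProduct.map_tmul, FunHopfAx_j₃_assoc_symm, j₂_comulHom, j₂_tmul]
    rfl
  | add s t hs ht =>
    rw [map_add, map_add, map_add, map_add, Pi.add_apply, Pi.add_apply, hs, ht]

theorem FunHopfAx_lid (hd : Data Hf) (t : Hf ⊗[R] Hf) (y : G) :
    ((Algebra.TensorProduct.lid R Hf
      (Algebra.TensorProduct.map (counitHom hd) (.id R Hf) t) : Hf) : G → Ω) y =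
      j₂ Hf t (0, y) := by
  induction t using TensorProduct.induction_on with
  | zero => rw [map_zero, map_zero, map_zero]; rfl
  | tmul a b =>
    rw [Algebra.TensorProduct.map_tmul, Algebra.TensorProduct.lid_tmul, j₂_tmul,
      ← algebraMap_counitHom hd a]
    change (counitHom hd a) • ((b : G → Ω) y) = _
    rw [Algebra.smul_def]
  | add s t hs ht =>
    rw [map_add, map_add, map_add, Pi.add_apply, ← hs, ← ht]
    rfl

theorem FunHopfAx_rid (hd : Data Hf) (t : Hf ⊗[R] Hf) (x : G) :
    ((Algebra.TensorProduct.rid R R Hf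
      (Algebra.TensorProduct.map (.id R Hf) (counitHom hd) t) : Hf) : G → Ω) x =
      j₂ Hf t (x, 0) := by
  induction t using TensorProduct.induction_on with
  | zero => rw [map_zero, map_zero, map_zero]; rfl
  | tmul a b =>
    rw [Algebra.TensorProduct.map_tmul, Algebra.TensorProduct.rid_tmul, j₂_tmul,
      ← algebraMap_counitHom hd b]
    change (counitHom hd b) • ((a : G → Ω) x) = _
    rw [Algebra.smul_def, mul_comm]
  | add s t hs ht =>
    rw [map_add, map_add, map_add, Pi.add_apply, ← hs, ← ht]
    rfl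

theorem coassoc (hd : Data Hf) :
    (Algebra.TensorProduct.assoc R R R Hf Hf Hf).toAlgHom.comp
      ((Algebra.TensorProduct.map (comulHom hd) (.id R Hf)).comp (comulHom hd))
      = (Algebra.TensorProduct.map (.id R Hf) (comulHom hd)).comp (comulHom hd) := by
  ext f : 1
  apply (Algebra.TensorProduct.assoc R R R Hf Hf Hf).symm.injective
  change (Algebra.TensorProduct.assoc R R R Hf Hf Hf).symm
      ((Algebra.TensorProduct.assoc R R R Hf Hf Hf)
        (Algebra.TensorProduct.map (comulHom hd) (.id R Hf) (comulHom hd f))) =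
    (Algebra.TensorProduct.assoc R R R Hf Hf Hf).symm
      (Algebra.TensorProduct.map (.id R Hf) (comulHom hd) (comulHom hd f))
  rw [AlgEquiv.symm_apply_apply]
  apply j₃_injective hd
  funext p
  rw [FunHopfAx_j₃_map_left, FunHopfAx_j₃_map_right, j₂_comulHom, j₂_comulHom, add_assoc]

theorem rTensor_counit (hd : Data Hf) :
    (Algebra.TensorProduct.map (counitHom hd) (.id R Hf)).comp (comulHom hd)
      = (Algebra.TensorProduct.lid R Hf).symm := by
  ext f : 1
  apply (Algebra.TensorProduct.lid R Hf).injective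
  change Algebra.TensorProduct.lid R Hf
      (Algebra.TensorProduct.map (counitHom hd) (.id R Hf) (comulHom hd f)) =
    Algebra.TensorProduct.lid R Hf ((Algebra.TensorProduct.lid R Hf).symm f)
  rw [AlgEquiv.apply_symm_apply]
  apply Subtype.ext
  funext y
  rw [FunHopfAx_lid, j₂_comulHom, zero_add]

theorem lTensor_counit (hd : Data Hf) :
    (Algebra.TensorProduct.map (.id R Hf) (counitHom hd)).comp (comulHom hd)
      = (Algebra.TensorProduct.rid R R Hf).symm := by
  ext f : 1
  apply (Algebra.TensorProduct.rid R R Hf).injective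
  change Algebra.TensorProduct.rid R R Hf
      (Algebra.TensorProduct.map (.id R Hf) (counitHom hd) (comulHom hd f)) =
    Algebra.TensorProduct.rid R R Hf ((Algebra.TensorProduct.rid R R Hf).symm f)
  rw [AlgEquiv.apply_symm_apply]
  apply Subtype.ext
  funext x
  rw [FunHopfAx_rid, j₂_comulHom, add_zero]

/-- the bialgebra structure. -/
abbrev bialg (hd : Data Hf) : Bialgebra R Hf :=
  Bialgebra.ofAlgHom (comulHom hd) (counitHom hd) (coassoc hd) (rTensor_counit hd)
    (lTensor_counit hd)

end Fermat.Agent.S19.FunHopf
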