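import Fermat.Agent.S19.H.FunHopfAx

/-!
# S19-H : Hopf algebras of functions: the axioms (evaluate with `j₂`, `j₃`)
-/

set_option autoImplicit false

open TensorProduct

noncomputable section

namespace Fermat.Agent.S19.FunHopf

variable {R Ω G : Type} [CommRing R] [Field Ω] [Algebra R Ω] [AddCommGroup G] [Fintype G]
variable {Hf : Subalgebra R (G → Ω)}

theorem FunHopfAx2_rTensor (hd : Data Hf) (t : Hf ⊗[R] Hf) (x : G) :
    ((LinearMap.mul' R Hf ((antiLin hd).rTensor Hf t) : Hf) : G → Ω) x = j₂ Hf t (-x, x) := by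
  induction t using TensorProduct.induction_on with
  | zero => simp
  | tmul f g =>
    rw [LinearMap.rTensor_tmul, LinearMap.mul'_apply, j₂_tmul]
    rfl
  | add a b ha hb =>
    rw [map_add, map_add, map_add, Subalgebra.coe_add, Pi.add_apply, Pi.add_apply, ha, hb]

theorem FunHopfAx2_lTensor (hd : Data Hf) (t : Hf ⊗[R] Hf) (x : G) :
    ((LinearMap.mul' R Hf ((antiLin hd).lTensor Hf t) : Hf) : G → Ω) x = j₂ Hf t (x, -x) := by
  induction t using TensorProduct.induction_on with
  | zero => simp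
  | tmul f g =>
    rw [LinearMap.lTensor_tmul, LinearMap.mul'_apply, j₂_tmul]
    rfl
  | add a b ha hb =>
    rw [map_add, map_add, map_add, Subalgebra.coe_add, Pi.add_apply, Pi.add_apply, ha, hb]

theorem FunHopfAx2_comm (t : Hf ⊗[R] Hf) (p : G × G) :
    j₂ Hf (TensorProduct.comm R Hf Hf t) p = j₂ Hf t (p.2, p.1) := by
  induction t using TensorProduct.induction_on with
  | zero => simp
  | tmul f g =>
    rw [TensorProduct.comm_tmul, j₂_tmul, j₂_tmul, mul_comm]
  | add a b ha hb =>
    rw [map_add, map_add, map_add, Pi.add_apply, Pi.add_apply, ha, hb]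

theorem FunHopfAx2_counit (hd : Data Hf) (f : Hf) (x : G) :
    ((Algebra.linearMap R Hf (counitHom hd f) : Hf) : G → Ω) x = (f : G → Ω) 0 := by
  rw [← algebraMap_counitHom hd f]
  rfl

theorem mul_anti_rTensor (hd : Data Hf) :
    LinearMap.mul' R Hf ∘ₗ (antiLin hd).rTensor Hf ∘ₗ (comulHom hd).toLinearMap
      = Algebra.linearMap R Hf ∘ₗ (counitHom hd).toLinearMap := by
  refine LinearMap.ext fun f => Subtype.ext (funext fun x => ?_)
  change ((LinearMap.mul' R Hf ((antiLin hd).rTensor Hf (comulHom hd f)) : Hf) : G → Ω) x =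
    ((Algebra.linearMap R Hf (counitHom hd f) : Hf) : G → Ω) x
  rw [FunHopfAx2_rTensor, j₂_comulHom, FunHopfAx2_counit, neg_add_cancel]

theorem mul_anti_lTensor (hd : Data Hf) :
    LinearMap.mul' R Hf ∘ₗ (antiLin hd).lTensor Hf ∘ₗ (comulHom hd).toLinearMap
      = Algebra.linearMap R Hf ∘ₗ (counitHom hd).toLinearMap := by
  refine LinearMap.ext fun f => Subtype.ext (funext fun x => ?_)
  change ((LinearMap.mul' R Hf ((antiLin hd).lTensor Hf (comulHom hd f)) : Hf) : G → Ω) x =
    ((Algebra.linearMap R Hf (counitHom hd f) : Hf) : G → Ω) x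
  rw [FunHopfAx2_lTensor, j₂_comulHom, FunHopfAx2_counit, add_neg_cancel]

/-- the Hopf algebra structure. -/
abbrev hopf (hd : Data Hf) : HopfAlgebra R Hf :=
  letI := bialg hd
  { antipode := antiLin hd
    mul_antipode_rTensor_comul := mul_anti_rTensor hd
    mul_antipode_lTensor_comul := mul_anti_lTensor hd }

theorem isCocomm (hd : Data Hf) : letI := hopf hd; Coalgebra.IsCocomm R Hf := by
  let _ := hopf hd
  refine ⟨LinearMap.ext fun f => j₂_injective hd (funext fun p => ?_)⟩
  change j₂ Hf (TensorProduct.comm R Hf Hf (comulHom hd f)) p = j₂ Hf (comulHom hd f) p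
  rw [FunHopfAx2_comm, j₂_comulHom, j₂_comulHom, add_comm]

end Fermat.Agent.S19.FunHopf
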