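import Fermat.Agent.S19.H.FunHopfAx2

/-!
# S19-H : Hopf algebras of functions: the points
-/

set_option autoImplicit false
set_option linter.unusedSectionVars false

open TensorProduct

noncomputable section

namespace Fermat.Agent.S19.FunHopf

variable {R Ω G : Type} [CommRing R] [Field Ω] [Algebra R Ω] [AddCommGroup G] [Fintype G]
variable {Hf : Subalgebra R (G → Ω)}

/-- evaluation at a point. -/
def evPt (Hf : Subalgebra R (G → Ω)) (x : G) : Hf →ₐ[R] Ω :=
  (Pi.evalAlgHom R (fun _ : G => Ω) x).comp Hf.val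

theorem FunHopfPt_evPt_apply (x : G) (h : Hf) : evPt Hf x h = (h : G → Ω) x := rfl

/-- a multiplicative, unital `Ω`-linear form on `G → Ω` is an evaluation. -/
theorem FunHopfPt_proj (Φ : (G → Ω) →ₗ[Ω] Ω) (h1 : Φ 1 = 1)
    (hmul : ∀ f g, Φ (f * g) = Φ f * Φ g) : ∃ x : G, ∀ f, Φ f = f x := by
  classical
  have hsum : ∑ x : G, Φ (Pi.single x 1) = 1 := by
    rw [← map_sum, Finset.univ_sum_single]
    exact h1
  have hex : ∃ x : G, Φ (Pi.single x 1) ≠ 0 := by
    by_contra hcon
    push Not at hcon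
    rw [Finset.sum_eq_zero fun x _ => hcon x] at hsum
    exact zero_ne_one hsum
  obtain ⟨x, hx⟩ := hex
  refine ⟨x, fun f => ?_⟩
  have h2 : f * Pi.single x 1 = f x • (Pi.single x 1 : G → Ω) := by
    ext y
    by_cases hy : y = x
    · subst hy
      simp
    · simp [Pi.single_eq_of_ne hy]
  have h3 := hmul f (Pi.single x 1)
  rw [h2, map_smul, smul_eq_mul] at h3
  exact (mul_right_cancel₀ hx h3).symm

/-- [extend `φ` `Ω`-linearly to `G → Ω` using the basis: an `Ω`-algebra homomorphism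
`(G → Ω) → Ω`, which is a projection (look at the idempotents `Pi.single x 1`).] -/
theorem exists_eq_evPt (hd : Data Hf) (φ : Hf →ₐ[R] Ω) : ∃ x : G, φ = evPt Hf x := by
  obtain ⟨ι, _, b, hli, hsp⟩ := hd.basis
  let B : Module.Basis ι Ω (G → Ω) := Module.Basis.mk hli (by rw [hsp])
  have hB : ∀ i, B i = ((b i : Hf) : G → Ω) := fun i => Module.Basis.mk_apply hli _ i
  let Φ : (G → Ω) →ₗ[Ω] Ω := B.constr Ω (fun i => φ (b i))
  have hΦb : ∀ i, Φ ((b i : Hf) : G → Ω) = φ (b i) := by
    intro i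
    rw [← hB i]
    exact B.constr_basis Ω _ i
  have hΦH : ∀ h : Hf, Φ (h : G → Ω) = φ h := by
    have : (Φ.restrictScalars R) ∘ₗ Hf.val.toLinearMap = φ.toLinearMap :=
      b.ext fun i => hΦb i
    intro h
    exact LinearMap.congr_fun this h
  have hmul : ∀ f g, Φ (f * g) = Φ f * Φ g := by
    have : (LinearMap.mul Ω (G → Ω)).compr₂ Φ = (LinearMap.mul Ω Ω).compl₁₂ Φ Φ := by
      refine LinearMap.ext_basis B B fun i j => ?_
      simp only [LinearMap.compr₂_apply, LinearMap.mul_apply', LinearMap.compl₁₂_apply, hB]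
      have : ((b i : Hf) : G → Ω) * ((b j : Hf) : G → Ω) = ((b i * b j : Hf) : G → Ω) := rfl
      rw [this, hΦH, hΦb, hΦb, map_mul]
    intro f g
    exact LinearMap.congr_fun₂ this f g
  have h1 : Φ 1 = 1 := by
    have := hΦH 1
    rwa [map_one] at this
  obtain ⟨x, hx⟩ := FunHopfPt_proj Φ h1 hmul
  refine ⟨x, AlgHom.ext fun h => ?_⟩
  rw [← hΦH, hx]
  rfl

theorem evPt_injective (hd : Data Hf) : Function.Injective (evPt Hf : G → (Hf →ₐ[R] Ω)) := by
  classical
  intro x y hxy
  obtain ⟨ι, _, b, _, hsp⟩ := hd.basis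
  have key : ∀ f : G → Ω, f x = f y := by
    intro f
    have hf : f ∈ Submodule.span Ω (Set.range fun i => ((b i : Hf) : G → Ω)) := by
      rw [hsp]; trivial
    induction hf using Submodule.span_induction with
    | mem f hf =>
      obtain ⟨i, rfl⟩ := hf
      exact DFunLike.congr_fun hxy (b i)
    | zero => rfl
    | add f g _ _ hf hg => simp only [Pi.add_apply, hf, hg]
    | smul c f _ hf => simp only [Pi.smul_apply, hf]
  have h1 := key (Pi.single x 1)
  by_contra hne
  rw [Pi.single_eq_same, Pi.single_eq_of_ne (Ne.symm hne)] at h1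
  exact one_ne_zero h1

theorem FunHopfPt_lift (x y : G) (t : Hf ⊗[R] Hf) :
    Algebra.TensorProduct.lift (evPt Hf x) (evPt Hf y) (fun _ _ => .all ..) t =
      j₂ Hf t (x, y) := by
  induction t using TensorProduct.induction_on with
  | zero => simp
  | tmul f g => simp [FunHopfPt_evPt_apply]
  | add s t hs ht => simp only [map_add, hs, ht, Pi.add_apply]

theorem evPt_convMul (hd : Data Hf) (x y : G) : letI := hopf hd
    (WithConv.toConv (evPt Hf x) * WithConv.toConv (evPt Hf y) : WithConv (Hf →ₐ[R] Ω))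
      = WithConv.toConv (evPt Hf (x + y)) := by
  letI := hopf hd
  apply WithConv.ext
  refine AlgHom.ext fun h => ?_
  have h1 := AlgHom.convMul_apply (WithConv.toConv (evPt Hf x)) (WithConv.toConv (evPt Hf y)) h
  refine h1.trans ?_
  have h2 : (Coalgebra.comul (R := R) h : Hf ⊗[R] Hf) = comulHom hd h := rfl
  rw [h2]
  exact (FunHopfPt_lift x y _).trans (j₂_comulHom hd h (x, y))

/-- **Main theorem of the file.** -/
theorem exists_equiv (hd : Data Hf) : letI := hopf hd
    ∃ e : WithConv (Hf →ₐ[R] Ω) ≃ G,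
      (∀ (φ : WithConv (Hf →ₐ[R] Ω)) (h : Hf), φ h = (h : G → Ω) (e φ)) ∧
        ∀ φ ψ, e (φ * ψ) = e φ + e ψ := by
  letI := hopf hd
  let e₀ : G ≃ WithConv (Hf →ₐ[R] Ω) :=
    Equiv.ofBijective (fun x => WithConv.toConv (evPt Hf x))
      ⟨fun x y h => evPt_injective hd (WithConv.toConv_injective h), fun φ => by
        obtain ⟨x, hx⟩ := exists_eq_evPt hd φ.ofConv
        exact ⟨x, WithConv.ext hx.symm⟩⟩
  have he₀ : ∀ x, e₀ x = WithConv.toConv (evPt Hf x) := fun _ => rfl
  refine ⟨e₀.symm, fun φ h => ?_, fun φ ψ => ?_⟩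
  · obtain ⟨x, rfl⟩ := e₀.surjective φ
    rw [Equiv.symm_apply_apply]
    rfl
  · obtain ⟨x, rfl⟩ := e₀.surjective φ
    obtain ⟨y, rfl⟩ := e₀.surjective ψ
    rw [Equiv.symm_apply_apply, Equiv.symm_apply_apply, Equiv.symm_apply_eq, he₀, he₀, he₀]
    exact evPt_convMul hd x y

end Fermat.Agent.S19.FunHopf
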