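import Fermat.Agent.S19.H.Defs

/-!
# S19-H : the coalgebra lattice spanned by the `γ_j` (pairing form)

`V`, `W` finite `GQ`-modules, `e : V × W → Qbˣ` an equivariant bimultiplicative pairing,
non degenerate on the left, such that every `e x ∈ MG A W`.  `(g_i)` an integral basis of
`ED A ⊤ W`, `(μ_i)` its dual basis for `∑_w`, `γ_i x := ∑_w μ_i w * e x w`, so that
`e x = ∑_i γ_i x • g_i`.
-/

set_option autoImplicit false

noncomputable section

namespace Fermat.Agent.S19

/-- equivariant bimultiplicative pairings, non degenerate on the left. -/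
structure IsPairing {V W : Type} [AddCommGroup V] [AddCommGroup W] [DistribMulAction GQ V]
    [DistribMulAction GQ W] (e : V → W → Qb) : Prop where
  add_left : ∀ x x' w, e (x + x') w = e x w * e x' w
  add_right : ∀ x w w', e x (w + w') = e x w * e x w'
  ne_zero : ∀ x w, e x w ≠ 0
  equiv : ∀ (σ : GQ) x w, e (σ • x) (σ • w) = σ (e x w)
  nondeg : ∀ x, (∀ w, e x w = 1) → x = 0

/-- the dual basis of a basis of equivariant functions is equivariant. -/
theorem exists_dual {X : Type} [Fintype X] [DecidableEq X] [MulAction GQ X] (b : X → (X → Qb))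
    (hb : ∀ i (σ : GQ) x, b i (σ • x) = σ (b i x)) (hli : LinearIndependent Qb b) :
    ∃ b' : X → (X → Qb), (∀ j k, ∑ x, b' j x * b k x = if j = k then 1 else 0) ∧
      (∀ j (σ : GQ) x, b' j (σ • x) = σ (b' j x)) ∧ LinearIndependent Qb b' ∧
      ∀ f : X → Qb, f = ∑ k, (∑ x, b' k x * f x) • b k := by
  classical
  set M : Matrix X X Qb := Matrix.of b with hM
  have hMu : IsUnit M := Matrix.linearIndependent_rows_iff_isUnit.mp hli
  have hdet : IsUnit M.det := (Matrix.isUnit_iff_isUnit_det M).mp hMu
  have h1 : M * M⁻¹ = 1 := Matrix.mul_nonsing_inv M hdet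
  have h2 : M⁻¹ * M = 1 := Matrix.nonsing_inv_mul M hdet
  have hdual : ∀ j k, ∑ x, M⁻¹ x j * b k x = if j = k then 1 else 0 := by
    intro j k
    have := congrFun (congrFun h1 k) j
    rw [Matrix.mul_apply, Matrix.one_apply] at this
    rw [show (if j = k then (1 : Qb) else 0) = if k = j then 1 else 0 by
      simp only [eq_comm]]
    rw [← this]
    exact Finset.sum_congr rfl fun x _ => mul_comm _ _
  refine ⟨fun j x => M⁻¹ x j, hdual, ?_, ?_, ?_⟩
  · intro j σ x
    -- the matrix `N x j := σ⁻¹ (M⁻¹ (σ • x) j)` is a right inverse of `M`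
    set N : Matrix X X Qb := fun x j => σ⁻¹ (M⁻¹ (σ • x) j) with hN
    have hMN : M * N = 1 := by
      ext k j
      rw [Matrix.mul_apply, Matrix.one_apply]
      have e1 : ∀ x, M k x * N x j = σ⁻¹ (M⁻¹ (σ • x) j * b k (σ • x)) := by
        intro x
        rw [map_mul, hb k σ x, ← AlgEquiv.mul_apply, inv_mul_cancel, AlgEquiv.one_apply, mul_comm]
        rfl
      have e2 : ∑ x, M⁻¹ (σ • x) j * b k (σ • x) = ∑ y, M⁻¹ y j * b k y :=
        Equiv.sum_comp (MulAction.toPerm σ : Equiv.Perm X) (fun y => M⁻¹ y j * b k y)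
      rw [Finset.sum_congr rfl fun x _ => e1 x, ← map_sum, e2, hdual j k]
      by_cases hjk : j = k
      · rw [if_pos hjk, if_pos hjk.symm, map_one]
      · rw [if_neg hjk, if_neg (Ne.symm hjk), map_zero]
    have hNeq : N = M⁻¹ := by
      calc N = (M⁻¹ * M) * N := by rw [h2, Matrix.one_mul]
        _ = M⁻¹ * (M * N) := Matrix.mul_assoc _ _ _
        _ = M⁻¹ := by rw [hMN, Matrix.mul_one]
    have := congrFun (congrFun hNeq x) j
    rw [hN] at this
    change σ⁻¹ (M⁻¹ (σ • x) j) = M⁻¹ x j at this
    change M⁻¹ (σ • x) j = σ (M⁻¹ x j)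
    rw [← this, ← AlgEquiv.mul_apply, mul_inv_cancel, AlgEquiv.one_apply]
  · have hu : IsUnit (Matrix.transpose M⁻¹) := by
      rw [Matrix.isUnit_iff_isUnit_det, Matrix.det_transpose, ← Matrix.isUnit_iff_isUnit_det]
      exact ⟨⟨M⁻¹, M, h2, h1⟩, rfl⟩
    exact Matrix.linearIndependent_rows_iff_isUnit.mpr hu
  · intro f
    funext y
    rw [Finset.sum_apply]
    simp only [Pi.smul_apply, smul_eq_mul, Finset.sum_mul]
    rw [Finset.sum_comm]
    have e1 : ∀ x, ∑ k, M⁻¹ x k * f x * b k y = f x * (if x = y then 1 else 0) := by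
      intro x
      have := congrFun (congrFun h2 x) y
      rw [Matrix.mul_apply, Matrix.one_apply] at this
      rw [← this, Finset.mul_sum]
      refine Finset.sum_congr rfl fun k _ => ?_
      change _ = f x * (M⁻¹ x k * b k y)
      ring
    rw [Finset.sum_congr rfl fun x _ => e1 x]
    simp

/-- finite Stone-Weierstrass: the functions `e · w` span `V → Qb`.
[their span `S` is a unital subalgebra (`e · w * e · w' = e · (w+w')`, `e · 0 = 1`) which separates
the points (`x ≠ y`: `e (x-y) w ≠ 1` for some `w`); `Pi.single x 1 = ∏_{y ≠ x} (f_y - f_y y)/(f_y x -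
f_y y)`.] -/
theorem span_pairing_eq_top {V W : Type} [AddCommGroup V] [AddCommGroup W] [DistribMulAction GQ V]
    [DistribMulAction GQ W] [Fintype V] (e : V → W → Qb) (he : IsPairing e) :
    Submodule.span Qb (Set.range fun w : W => fun x : V => e x w) = ⊤ := by
  classical
  by_contra hne
  obtain ⟨φ, hφ0, hφ⟩ := Submodule.exists_le_ker_of_lt_top _ (lt_top_iff_ne_top.mpr hne)
  -- the characters `e x ·`
  have h0 : ∀ x, e x 0 = 1 := by
    intro x
    have := he.add_right x 0 0
    rw [add_zero] at this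
    exact (mul_eq_left₀ (he.ne_zero x 0)).mp this.symm
  let χ : V → (Multiplicative W →* Qb) := fun x =>
    { toFun := fun w => e x w.toAdd
      map_one' := h0 x
      map_mul' := fun w w' => he.add_right x _ _ }
  have hχ : Function.Injective χ := by
    intro x y hxy
    have hw : ∀ w, e x w = e y w := fun w => DFunLike.congr_fun hxy (Multiplicative.ofAdd w)
    have : x - y = 0 := by
      apply he.nondeg
      intro w
      have h3 := he.add_left (x - y) y w
      rw [sub_add_cancel, hw w] at h3
      exact (mul_eq_right₀ (he.ne_zero y w)).mp h3.symm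
    exact sub_eq_zero.mp this
  have hli : LinearIndependent Qb (fun x : V => (χ x : Multiplicative W → Qb)) :=
    (linearIndependent_monoidHom (Multiplicative W) Qb).comp χ hχ
  apply hφ0
  have hc : ∀ x, φ (fun j => if x = j then 1 else 0) = 0 := by
    have hsum : ∑ x, φ (fun j => if x = j then 1 else 0) • (χ x : Multiplicative W → Qb) = 0 := by
      funext w
      have h4 : φ (fun x : V => e x w.toAdd) = 0 :=
        hφ (Submodule.subset_span ⟨w.toAdd, rfl⟩)
      rw [LinearMap.pi_apply_eq_sum_univ] at h4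
      rw [Finset.sum_apply, Pi.zero_apply]
      refine Eq.trans ?_ h4
      refine Finset.sum_congr rfl fun x _ => ?_
      simp only [Pi.smul_apply, smul_eq_mul]
      exact mul_comm (φ _) (e x w.toAdd)
    intro x
    exact Fintype.linearIndependent_iff.mp hli _ hsum x
  refine LinearMap.ext fun f => ?_
  rw [LinearMap.pi_apply_eq_sum_univ]
  simp [hc]

end Fermat.Agent.S19
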