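import Fermat.Agent.S19.H.Basis
import Fermat.Agent.S19.H.Pair

/-!
# S19-H : the coalgebra lattice spanned by the `γ_j` (pairing form)

`V`, `W` finite `GQ`-modules, `e : V × W → Qbˣ` an equivariant bimultiplicative pairing,
non degenerate on the left, such that every `e x ∈ MG A W`.  `(g_i)` an integral basis of
`ED A ⊤ W`, `(μ_i)` its dual basis for `∑_w`, `γ_i x := ∑_w μ_i w * e x w`, so that
`e x = ∑_i γ_i x • g_i`.
-/

set_option autoImplicit false

noncomputable section

namespace Fermat.Agent.S19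

variable {V W : Type} [AddCommGroup V] [AddCommGroup W] [DistribMulAction GQ V]
  [DistribMulAction GQ W] [Fintype V] [Fintype W] {ℓ : ℕ} [Fact ℓ.Prime]

/-- [`g` := `exists_basis` for `X = W`, `μ` := `exists_dual g`, `γ i x := ∑_w μ i w * e x w`.
* equivariant: reindex the sum by `w ↦ σ • w`.
* `A`-valued: `e x = ∑ a_j f_j`, `a_j ∈ A`, `f_j ∈ ED A ⊤ W` (`Submodule.span_induction`), and
  `∑_w μ i w * f_j w` is the `i`-th coordinate of `f_j` in the basis `g`: it lies in `ℤ_(ℓ) ⊆ A`.
* `e x = ∑_i γ i x • g i` (last part of `exists_dual`), so `e · w = ∑_i g i w • γ i`: the `γ i` span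
  (`span_pairing_eq_top`).
* `g i * g j ∈ ED A ⊤ W`, so `g i * g j = ∑_k m i j k • g k`, `m i j k ∈ ℤ_(ℓ)`; compare the
  coordinates of `e (x+y) = e x * e y = ∑_{ij} γ i x γ j y g i g j`.
* `w ↦ g i (-w)` is in `ED A ⊤ W`; `e (-x) w = e x (-w)`; compare coordinates.] -/
theorem exists_gamma (A : ValuationSubring Qb) (hA : A.LiesOverPrime ℓ) (hfinW : FinLevel W)
    (e : V → W → Qb) (he : IsPairing e) (hCH : ∀ x, e x ∈ MG A W) :
    ∃ γ : W → (V → Qb),
      (∀ j, γ j ∈ ED A ⊤ V) ∧ Submodule.span Qb (Set.range γ) = ⊤ ∧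
      (∃ m : W → W → W → Rl ℓ, ∀ k x y,
        γ k (x + y) = ∑ i, ∑ j, algebraMap (Rl ℓ) Qb (m i j k) * (γ i x * γ j y)) ∧
      (∀ k, ∃ c : W → Rl ℓ, ∀ x, γ k (-x) = ∑ j, algebraMap (Rl ℓ) Qb (c j) * γ j x) := by
  classical
  obtain ⟨g, hgE, hgli, hgspan⟩ := exists_basis (X := W) A hA hfinW
  have hgeq : ∀ i (σ : GQ) x, g i (σ • x) = σ (g i x) := fun i σ x =>
    (hgE i).2 σ (Subgroup.mem_top σ) x
  obtain ⟨μ, hμg, hμeq, -, hμexp⟩ := exists_dual g hgeq hgli
  -- the coordinate functionals
  let co : W → ((W → Qb) →ₗ[Qb] Qb) := fun k =>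
    ∑ w, (μ k w) • (LinearMap.proj w : (W → Qb) →ₗ[Qb] Qb)
  have co_apply : ∀ k (f : W → Qb), co k f = ∑ w, μ k w * f w := by
    intro k f
    simp only [co, LinearMap.sum_apply, LinearMap.smul_apply, LinearMap.proj_apply, smul_eq_mul]
  have co_g : ∀ k i, co k (g i) = if k = i then 1 else 0 := fun k i => by
    rw [co_apply]; exact hμg k i
  have hexp : ∀ f : W → Qb, f = ∑ k, co k f • g k := by
    intro f
    have := hμexp f
    simp only [← co_apply] at this
    exact this
  have co_int : ∀ k, ∀ f ∈ ED A ⊤ W, ∃ r : Rl ℓ, co k f = algebraMap (Rl ℓ) Qb r := by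
    intro k f hf
    obtain ⟨c, hc⟩ := hgspan f hf
    refine ⟨c k, ?_⟩
    rw [hc, map_sum]
    simp only [map_smul, co_g, smul_eq_mul, mul_ite, mul_one, mul_zero, Finset.sum_ite_eq,
      Finset.mem_univ, if_true]
  have hexpe : ∀ x w, e x w = ∑ k, co k (e x) * g k w := by
    intro x w
    have := congrFun (hexp (e x)) w
    simpa only [Finset.sum_apply, Pi.smul_apply, smul_eq_mul] using this
  -- values of the pairing at `0`
  have he0l : ∀ w, e 0 w = 1 := by
    intro w
    have h := he.add_left 0 0 w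
    rw [add_zero] at h
    exact (mul_eq_left₀ (he.ne_zero 0 w)).1 h.symm
  have he0r : ∀ x, e x 0 = 1 := by
    intro x
    have h := he.add_right x 0 0
    rw [add_zero] at h
    exact (mul_eq_left₀ (he.ne_zero x 0)).1 h.symm
  have heneg : ∀ x w, e (-x) w = e x (-w) := by
    intro x w
    have h1 : e (-x) w * e x w = 1 := by rw [← he.add_left, neg_add_cancel, he0l]
    have h2 : e x (-w) * e x w = 1 := by rw [← he.add_right, neg_add_cancel, he0r]
    exact mul_right_cancel₀ (he.ne_zero x w) (h1.trans h2.symm)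
  refine ⟨fun k x => co k (e x), ?_, ?_, ?_, ?_⟩
  · -- integral and equivariant
    intro j
    refine ⟨fun x => ?_, fun σ _ x => ?_⟩
    · have key : ∀ f ∈ MG A W, co j f ∈ A := by
        intro f hf
        unfold MG at hf
        induction hf using Submodule.span_induction with
        | mem f hf =>
          obtain ⟨r, hr⟩ := co_int j f hf
          rw [hr]
          exact algebraMap_Rl_mem A hA r
        | zero => rw [map_zero]; exact A.zero_mem
        | add f f' _ _ hf hf' => rw [map_add]; exact A.add_mem _ _ hf hf'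
        | smul a f _ hf =>
          have : co j (a • f) = (a : Qb) * co j f := by
            have e1 : a • f = (a : Qb) • f := rfl
            rw [e1, map_smul, smul_eq_mul]
          rw [this]
          exact A.mul_mem _ _ a.2 hf
      exact key _ (hCH x)
    · show co j (e (σ • x)) = σ (co j (e x))
      rw [co_apply, co_apply, map_sum, ← Equiv.sum_comp (MulAction.toPerm σ)]
      refine Finset.sum_congr rfl fun w _ => ?_
      rw [MulAction.toPerm_apply, hμeq, he.equiv, map_mul]
  · -- the `γ` span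
    rw [eq_top_iff, ← span_pairing_eq_top e he, Submodule.span_le]
    rintro _ ⟨w, rfl⟩
    have : (fun x : V => e x w) = ∑ k, g k w • (fun x : V => co k (e x)) := by
      funext x
      rw [hexpe x w, Finset.sum_apply]
      refine Finset.sum_congr rfl fun k _ => ?_
      rw [Pi.smul_apply, smul_eq_mul, mul_comm]
    show (fun x : V => e x w) ∈ Submodule.span Qb (Set.range fun k x => (co k) (e x))
    rw [this]
    exact Submodule.sum_mem _ fun k _ => Submodule.smul_mem _ _ (Submodule.subset_span ⟨k, rfl⟩)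
  · -- comultiplication
    have hmul : ∀ i j, g i * g j ∈ ED A ⊤ W := fun i j =>
      ⟨fun w => A.mul_mem _ _ ((hgE i).1 w) ((hgE j).1 w), fun σ _ w => by
        rw [Pi.mul_apply, Pi.mul_apply, hgeq, hgeq, map_mul]⟩
    choose m hm using fun (i j k : W) => co_int k (g i * g j) (hmul i j)
    refine ⟨m, fun k x y => ?_⟩
    have h1 : e (x + y) = ∑ i, ∑ j, (co i (e x) * co j (e y)) • (g i * g j) := by
      funext w
      rw [he.add_left, hexpe x w, hexpe y w, Finset.sum_mul_sum, Finset.sum_apply]
      refine Finset.sum_congr rfl fun i _ => ?_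
      rw [Finset.sum_apply]
      refine Finset.sum_congr rfl fun j _ => ?_
      rw [Pi.smul_apply, Pi.mul_apply, smul_eq_mul]
      ring
    show co k (e (x + y)) = _
    rw [h1, map_sum]
    refine Finset.sum_congr rfl fun i _ => ?_
    rw [map_sum]
    refine Finset.sum_congr rfl fun j _ => ?_
    rw [map_smul, smul_eq_mul, hm, mul_comm]
  · -- antipode
    intro k
    have hneg : ∀ j, (fun w => g j (-w)) ∈ ED A ⊤ W := fun j =>
      ⟨fun w => (hgE j).1 (-w), fun σ _ w => by
        show g j (-(σ • w)) = σ (g j (-w))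
        rw [← smul_neg, hgeq]⟩
    choose c hc using fun j : W => co_int k (fun w => g j (-w)) (hneg j)
    refine ⟨c, fun x => ?_⟩
    have h1 : e (-x) = ∑ j, co j (e x) • (fun w => g j (-w)) := by
      funext w
      rw [heneg, hexpe x (-w), Finset.sum_apply]
      rfl
    show co k (e (-x)) = _
    rw [h1, map_sum]
    refine Finset.sum_congr rfl fun j _ => ?_
    rw [map_smul, smul_eq_mul, hc, mul_comm]

end Fermat.Agent.S19
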