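import Fermat.Agent.S19.H.Span

/-!
# S19-H : the lattice `ED A ⊤ X` of integral equivariant functions (H2)
-/

set_option autoImplicit false

noncomputable section

namespace Fermat.Agent.S19

variable {X : Type} [Fintype X] [MulAction GQ X] {ℓ : ℕ} [Fact ℓ.Prime]

/-- the `Rl ℓ`-subalgebra of integral equivariant functions. -/
def EAlg (ℓ : ℕ) [Fact ℓ.Prime] (A : ValuationSubring Qb) (hA : A.LiesOverPrime ℓ) (X : Type)
    [MulAction GQ X] : Subalgebra (Rl ℓ) (X → Qb) where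
  carrier := ED A ⊤ X
  mul_mem' := by
    intro a b ha hb
    refine ⟨fun x => A.mul_mem _ _ (ha.1 x) (hb.1 x), fun σ hσ x => ?_⟩
    rw [Pi.mul_apply, Pi.mul_apply, ha.2 σ hσ, hb.2 σ hσ, map_mul]
  add_mem' := by
    intro a b ha hb
    refine ⟨fun x => A.add_mem _ _ (ha.1 x) (hb.1 x), fun σ hσ x => ?_⟩
    rw [Pi.add_apply, Pi.add_apply, ha.2 σ hσ, hb.2 σ hσ, map_add]
  algebraMap_mem' := by
    intro r
    refine ⟨fun x => ?_, fun σ _ x => ?_⟩
    · rw [Pi.algebraMap_apply]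
      exact algebraMap_Rl_mem A hA r
    · rw [Pi.algebraMap_apply, Pi.algebraMap_apply, algebraMap_Rl_apply, AlgEquiv.commutes]

theorem mem_EAlg (A : ValuationSubring Qb) (hA : A.LiesOverPrime ℓ) (a : X → Qb) :
    a ∈ EAlg ℓ A hA X ↔ a ∈ ED A ⊤ X := Iff.rfl

/-- `∑_x a x * b x ∈ ℤ_(ℓ)` for integral equivariant `a`, `b`. -/
theorem exists_Rl_sum_mul (A : ValuationSubring Qb) (hA : A.LiesOverPrime ℓ) (a b : X → Qb)
    (ha : a ∈ ED A ⊤ X) (hb : b ∈ ED A ⊤ X) :
    ∃ r : Rl ℓ, algebraMap (Rl ℓ) Qb r = ∑ x, a x * b x := by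
  refine exists_Rl_of_fixed A hA _ ?_ ?_
  · exact A.toSubring.sum_mem fun x _ => A.mul_mem _ _ (ha.1 x) (hb.1 x)
  · intro σ
    rw [map_sum, ← Equiv.sum_comp (MulAction.toPerm σ) (fun x => a x * b x)]
    refine Finset.sum_congr rfl fun x _ => ?_
    rw [map_mul, MulAction.toPerm_apply, ha.2 σ (Subgroup.mem_top σ), hb.2 σ (Subgroup.mem_top σ)]

/-- the pairing with a family of functions, as an `Rl ℓ`-linear map. -/
def Lattice_pair (ℓ : ℕ) [Fact ℓ.Prime] (A : ValuationSubring Qb) (hA : A.LiesOverPrime ℓ)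
    (X : Type) [Fintype X] [MulAction GQ X] (b : Set (X → Qb)) :
    EAlg ℓ A hA X →ₗ[Rl ℓ] (b → Qb) where
  toFun a := fun i => ∑ x, (a : X → Qb) x * (i : X → Qb) x
  map_add' := by
    intro a a'
    ext i
    simp only [Subalgebra.coe_add, Pi.add_apply, add_mul, Finset.sum_add_distrib]
  map_smul' := by
    intro r a
    ext i
    have h1 : ∀ x, ((r • a : EAlg ℓ A hA X) : X → Qb) x = algebraMap (Rl ℓ) Qb r * (a : X → Qb) x := by
      intro x
      rw [Subalgebra.coe_smul, Pi.smul_apply, Algebra.smul_def]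
    simp only [h1, RingHom.id_apply, Pi.smul_apply, Algebra.smul_def (A := Qb), Finset.mul_sum,
      mul_assoc]

theorem Lattice_pair_injective (A : ValuationSubring Qb) (hA : A.LiesOverPrime ℓ)
    (b : Set (X → Qb)) (hb : Submodule.span Qb b = ⊤) :
    Function.Injective (Lattice_pair ℓ A hA X b) := by
  classical
  rw [injective_iff_map_eq_zero]
  intro a ha
  let φ : (X → Qb) →ₗ[Qb] Qb := ∑ x, ((a : X → Qb) x) • LinearMap.proj x
  have hφ : ∀ f : X → Qb, φ f = ∑ x, (a : X → Qb) x * f x := by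
    intro f
    simp [φ, LinearMap.sum_apply]
  have h0 : φ = 0 := by
    refine LinearMap.ext_on hb ?_
    intro f hf
    rw [hφ, LinearMap.zero_apply]
    exact congrFun ha ⟨f, hf⟩
  apply Subtype.ext
  funext x
  have h1 := hφ (Pi.single x 1)
  rw [h0, LinearMap.zero_apply] at h1
  simpa [Pi.single_apply] using h1.symm

/-- `ED A ⊤ X` is a finitely generated `ℤ_(ℓ)`-module.
[choose among `ED A ⊤ X` a `Qb`-basis `(b_i)` of `X → Qb` (`span_ED_top_eq_top`,
`exists_linearIndependent`); the bilinear form `∑_x a x * b x` is non degenerate, let `(b_i^*)` be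
the dual basis; `a = ∑ ⟨a, b_i⟩ b_i^*` with `⟨a, b_i⟩ ∈ ℤ_(ℓ)`: `EAlg` is a submodule of the
finitely generated module `∑ ℤ_(ℓ) b_i^*` and `ℤ_(ℓ)` is noetherian.] -/
theorem EAlg_finite (A : ValuationSubring Qb) (hA : A.LiesOverPrime ℓ) (hfin : FinLevel X) :
    Module.Finite (Rl ℓ) (EAlg ℓ A hA X) := by
  obtain ⟨b, hbs, hspan, hli⟩ := exists_linearIndependent Qb (ED A ⊤ X)
  rw [span_ED_top_eq_top A hfin] at hspan
  have hbfin : Finite b := (LinearIndependent.setFinite hli).to_subtype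
  let P : Submodule (Rl ℓ) (b → Qb) :=
    LinearMap.range ((Algebra.linearMap (Rl ℓ) Qb).compLeft b)
  have hP : ∀ a, Lattice_pair ℓ A hA X b a ∈ P := by
    intro a
    choose r hr using fun i : b => exists_Rl_sum_mul A hA (a : X → Qb) (i : X → Qb) a.2 (hbs i.2)
    refine ⟨r, ?_⟩
    funext i
    exact hr i
  have hnoeth : IsNoetherian (Rl ℓ) P := inferInstance
  exact Module.Finite.of_injective ((Lattice_pair ℓ A hA X b).codRestrict P hP)
    (fun x y h => Lattice_pair_injective A hA b hspan (congrArg Subtype.val h))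

end Fermat.Agent.S19
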