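import Fermat.Agent.S19.H.Gamma
import Fermat.Agent.S19.H.FunHopfPt

/-!
# S19-H : (H5) the Hopf order generated by the `γ_j`
-/

set_option autoImplicit false

open TensorProduct

noncomputable section

namespace Fermat.Agent.S19

variable {V : Type} [AddCommGroup V] [DistribMulAction GQ V] [Fintype V] {ℓ : ℕ} [Fact ℓ.Prime]

/-- the order generated by the `γ j`. -/
def HfOf (ℓ : ℕ) {κ : Type} (γ : κ → (V → Qb)) : Subalgebra (Rl ℓ) (V → Qb) :=
  Algebra.adjoin (Rl ℓ) (Set.range γ)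

theorem HfOf_le {κ : Type} (A : ValuationSubring Qb) (hA : A.LiesOverPrime ℓ) (γ : κ → (V → Qb))
    (h1 : ∀ j, γ j ∈ ED A ⊤ V) : HfOf ℓ γ ≤ EAlg ℓ A hA V := by
  refine Algebra.adjoin_le ?_
  rintro _ ⟨j, rfl⟩
  exact h1 j

theorem order_gamma_mem {κ : Type} (γ : κ → (V → Qb)) (j : κ) : γ j ∈ HfOf ℓ γ :=
  Algebra.subset_adjoin ⟨j, rfl⟩

/-- [`inj`: `algebraMap_Rl_injective`.  `basis`: `exists_basis_of_le` for the submodule
`Subalgebra.toSubmodule (HfOf ℓ γ)`.  `comul`: `Algebra.adjoin_induction`: the set of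
`f` with `f(x+y) ∈ range j₂` is a subalgebra (comap of a subalgebra under an algebra
homomorphism) and contains the `γ k` by `h3`.  `counit`: `f 0` is fixed by `GQ` and lies in `A`
(`exists_Rl_of_fixed`).  `anti`: same induction with `h4`.] -/
theorem data_HfOf {κ : Type} [Fintype κ] (A : ValuationSubring Qb) (hA : A.LiesOverPrime ℓ)
    (hfin : FinLevel V)
    (γ : κ → (V → Qb)) (h1 : ∀ j, γ j ∈ ED A ⊤ V)
    (h2 : Submodule.span Qb (Set.range γ) = ⊤)
    (h3 : ∃ m : κ → κ → κ → Rl ℓ, ∀ k x y,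
        γ k (x + y) = ∑ i, ∑ j, algebraMap (Rl ℓ) Qb (m i j k) * (γ i x * γ j y))
    (h4 : ∀ k, ∃ c : κ → Rl ℓ, ∀ x, γ k (-x) = ∑ j, algebraMap (Rl ℓ) Qb (c j) * γ j x) :
    FunHopf.Data (HfOf ℓ γ) := by
  have hle := HfOf_le A hA γ h1
  refine ⟨algebraMap_Rl_injective, ?_, ?_, ?_, ?_⟩
  · have hspan : Submodule.span Qb
        ((Subalgebra.toSubmodule (HfOf ℓ γ) : Submodule (Rl ℓ) (V → Qb)) : Set (V → Qb)) = ⊤ := by
      rw [← top_le_iff, ← h2]
      refine Submodule.span_mono ?_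
      rintro _ ⟨j, rfl⟩
      exact order_gamma_mem γ j
    exact exists_basis_of_le A hA hfin (Subalgebra.toSubmodule (HfOf ℓ γ))
      (fun a ha => hle ha) hspan
  · obtain ⟨m, hm⟩ := h3
    have key : HfOf ℓ γ ≤ ((FunHopf.j₂ (HfOf ℓ γ)).range).comap
        (FunHopf.pb (R := Rl ℓ) (fun p : V × V => p.1 + p.2)) := by
      refine Algebra.adjoin_le ?_
      rintro _ ⟨k, rfl⟩
      have e : FunHopf.j₂ (HfOf ℓ γ) (∑ i, ∑ j, m i j k •
          ((⟨γ i, order_gamma_mem γ i⟩ : HfOf ℓ γ) ⊗ₜ[Rl ℓ]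
            (⟨γ j, order_gamma_mem γ j⟩ : HfOf ℓ γ))) =
          FunHopf.pb (R := Rl ℓ) (fun p : V × V => p.1 + p.2) (γ k) := by
        funext q
        simp only [map_sum, map_smul, Finset.sum_apply, Pi.smul_apply,
          FunHopf.j₂_tmul, FunHopf.pb_apply, Algebra.smul_def]
        exact (hm k q.1 q.2).symm
      exact ⟨_, e⟩
    exact fun f => key f.2
  · intro f
    have hf := hle f.2
    obtain ⟨r, hr⟩ := exists_Rl_of_fixed A hA ((f : V → Qb) 0) (hf.1 0) (fun σ => by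
      rw [← hf.2 σ (Subgroup.mem_top σ) 0, smul_zero])
    exact ⟨r, hr⟩
  · have key : HfOf ℓ γ ≤ (HfOf ℓ γ).comap (FunHopf.pb (R := Rl ℓ) (fun x : V => -x)) := by
      refine Algebra.adjoin_le ?_
      rintro _ ⟨k, rfl⟩
      obtain ⟨c, hc⟩ := h4 k
      have e : FunHopf.pb (R := Rl ℓ) (fun x : V => -x) (γ k) = ∑ j, c j • γ j := by
        funext x
        simp only [FunHopf.pb_apply, Finset.sum_apply, Pi.smul_apply, Algebra.smul_def]
        exact hc x
      show FunHopf.pb (R := Rl ℓ) (fun x : V => -x) (γ k) ∈ HfOf ℓ γ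
      rw [e]
      exact Subalgebra.sum_mem _ fun j _ => Subalgebra.smul_mem _ (order_gamma_mem γ j) _
    exact fun f => key f.2

end Fermat.Agent.S19
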