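import Fermat.Agent.S19.H.Defs

/-!
# S19-H : basic facts on `Rl ℓ = ℤ_(ℓ)` and on valuation subrings of `Qb` over `ℓ`
-/

set_option autoImplicit false
set_option linter.unusedSectionVars false

open scoped Pointwise

noncomputable section

namespace Fermat.Agent.S19

variable {ℓ : ℕ} [Fact ℓ.Prime]

/-- `ℤ_(ℓ)` is a PID. [every nonzero ideal is generated by `ℓ ^ k`, `k` minimal; or
`IsLocalization.AtPrime`; see also `Fermat/Agent/S28/*` for facts on `ratLocalizedAt`.] -/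
instance Rl_isPrincipalIdealRing : IsPrincipalIdealRing (Rl ℓ) := by
  refine ⟨fun I => ?_⟩
  obtain ⟨m, hm⟩ := (IsPrincipalIdealRing.principal
    (I.comap (Int.castRingHom ↥(GaloisRep.ratLocalizedAt ℓ)))).principal
  refine ⟨⟨((m : ℤ) : ↥(GaloisRep.ratLocalizedAt ℓ)), ?_⟩⟩
  have hmI : ((m : ℤ) : ↥(GaloisRep.ratLocalizedAt ℓ)) ∈ I := by
    have : m ∈ I.comap (Int.castRingHom ↥(GaloisRep.ratLocalizedAt ℓ)) := by
      rw [hm]; exact Submodule.mem_span_singleton_self m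
    simpa using this
  apply le_antisymm
  · intro x hx
    have hden : ((x : ℚ).den : ℚ)⁻¹ ∈ GaloisRep.ratLocalizedAt ℓ := by
      show (((x : ℚ).den : ℚ)⁻¹).den.Coprime ℓ
      have h1 : (((x : ℚ).den : ℚ)⁻¹).den = (x : ℚ).den := by
        rw [Rat.inv_natCast_den]
        simp [(x : ℚ).den_nz]
      rw [h1]
      exact x.2
    have hnum : (((x : ℚ).num : ℤ) : ↥(GaloisRep.ratLocalizedAt ℓ)) ∈ I := by
      have : (((x : ℚ).num : ℤ) : ↥(GaloisRep.ratLocalizedAt ℓ)) =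
          (((x : ℚ).den : ℕ) : ↥(GaloisRep.ratLocalizedAt ℓ)) * x := by
        apply Subtype.ext
        push_cast
        rw [mul_comm]
        exact (Rat.mul_den_eq_num (x : ℚ)).symm
      rw [this]
      exact I.mul_mem_left _ hx
    have hnum' : (x : ℚ).num ∈ I.comap (Int.castRingHom ↥(GaloisRep.ratLocalizedAt ℓ)) := by
      simpa using hnum
    rw [hm] at hnum'
    obtain ⟨c, hc⟩ := Submodule.mem_span_singleton.mp hnum'
    rw [Submodule.mem_span_singleton]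
    refine ⟨⟨((x : ℚ).den : ℚ)⁻¹, hden⟩ * ((c : ℤ) : ↥(GaloisRep.ratLocalizedAt ℓ)), ?_⟩
    apply Subtype.ext
    have hx' : (x : ℚ) = (x : ℚ).num / (x : ℚ).den := (Rat.num_div_den (x : ℚ)).symm
    rw [smul_eq_mul] at hc ⊢
    push_cast
    conv_rhs => rw [hx', ← hc]
    push_cast
    field_simp
  · rw [Submodule.span_le]
    simpa using hmI

theorem algebraMap_Rl_apply (r : Rl ℓ) : algebraMap (Rl ℓ) Qb r = algebraMap ℚ Qb (r : ℚ) := by
  rfl

theorem algebraMap_Rl_injective : Function.Injective (algebraMap (Rl ℓ) Qb) := by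
  intro a b hab
  rw [algebraMap_Rl_apply, algebraMap_Rl_apply] at hab
  exact Subtype.ext ((algebraMap ℚ Qb).injective hab)

/-- a natural number prime to `ℓ` is a unit of `A`. -/
theorem Rl_natCast_inv_mem (A : ValuationSubring Qb) (hA : A.LiesOverPrime ℓ) (n : ℕ)
    (hn : ¬ ℓ ∣ n) : ((n : Qb))⁻¹ ∈ A := by
  have hℓ : ℓ.Prime := Fact.out
  have hcop : IsCoprime (n : ℤ) (ℓ : ℤ) := by
    have : Nat.Coprime n ℓ := ((Nat.Prime.coprime_iff_not_dvd hℓ).2 hn).symm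
    exact Nat.isCoprime_iff_coprime.2 this
  obtain ⟨u, v, huv⟩ := hcop
  have huv' : (u : Qb) * n + v * ℓ = 1 := by exact_mod_cast huv
  -- `v (u n) = 1`
  have hlt : A.valuation ((v : Qb) * ℓ) < 1 := by
    rw [map_mul]
    exact mul_lt_of_le_one_of_lt ((A.valuation_le_one_iff _).2 (intCast_mem A v))
      ((A.mem_nonunits_iff).1 hA)
  have hn0 : (n : Qb) ≠ 0 := by
    intro h
    have : n = 0 := by exact_mod_cast h
    exact hn (this ▸ dvd_zero ℓ)
  by_contra hcon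
  have hnlt : A.valuation (n : Qb) < 1 := by
    have h1 : ¬ A.valuation ((n : Qb))⁻¹ ≤ 1 := fun h => hcon ((A.valuation_le_one_iff _).1 h)
    rw [map_inv₀, inv_le_one₀ (zero_lt_iff.2 ((A.valuation.ne_zero_iff).2 hn0)), not_le] at h1
    exact h1
  have hlt2 : A.valuation ((u : Qb) * n) < 1 := by
    rw [map_mul]
    exact mul_lt_of_le_one_of_lt ((A.valuation_le_one_iff _).2 (intCast_mem A u)) hnlt
  have := A.valuation.map_add_lt hlt2 hlt
  rw [huv', map_one] at this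
  exact lt_irrefl _ this

/-- `ℚ ∩ A = ℤ_(ℓ)`. -/
theorem mem_ratLocalizedAt_iff (A : ValuationSubring Qb) (hA : A.LiesOverPrime ℓ) (q : ℚ) :
    q ∈ GaloisRep.ratLocalizedAt ℓ ↔ algebraMap ℚ Qb q ∈ A := by
  have hℓ : ℓ.Prime := Fact.out
  have hcast : algebraMap ℚ Qb q = (q.num : Qb) / (q.den : Qb) := by
    conv_lhs => rw [← Rat.num_div_den q]
    rw [map_div₀, map_intCast, map_natCast]
  constructor
  · intro hx
    have hden : ¬ ℓ ∣ q.den := by
      intro h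
      have h1 : q.den.Coprime ℓ := hx
      have h2 : ℓ ∣ Nat.gcd q.den ℓ := Nat.dvd_gcd h dvd_rfl
      rw [h1] at h2
      exact hℓ.one_lt.ne' (Nat.dvd_one.mp h2)
    rw [hcast, div_eq_mul_inv]
    exact mul_mem (intCast_mem A _) (Rl_natCast_inv_mem A hA _ hden)
  · intro hx
    show q.den.Coprime ℓ
    rw [Nat.coprime_comm, Nat.Prime.coprime_iff_not_dvd hℓ]
    rintro ⟨b, hb⟩
    have hnum : ¬ (ℓ : ℤ) ∣ q.num := by
      intro h
      have h1 : ℓ ∣ q.num.natAbs := Int.natCast_dvd.mp h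
      have h2 : ℓ ∣ Nat.gcd q.num.natAbs q.den := Nat.dvd_gcd h1 ⟨b, hb⟩
      rw [q.reduced] at h2
      exact hℓ.one_lt.ne' (Nat.dvd_one.mp h2)
    have hcop : IsCoprime q.num (ℓ : ℤ) :=
      ((Nat.prime_iff_prime_int.mp hℓ).coprime_iff_not_dvd.mpr hnum).symm
    obtain ⟨u, v, huv⟩ := hcop
    have huv' : (u : Qb) * q.num + v * ℓ = 1 := by exact_mod_cast huv
    have hℓ0 : (ℓ : Qb) ≠ 0 := Nat.cast_ne_zero.mpr hℓ.ne_zero
    have hb0 : (b : Qb) ≠ 0 := by
      intro h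
      have : b = 0 := by exact_mod_cast h
      rw [this, mul_zero] at hb
      exact q.den_nz hb
    have hx' : algebraMap ℚ Qb q = q.num / ((ℓ : Qb) * b) := by
      rw [hcast, hb]
      push_cast
      rfl
    have h1 : ((ℓ : Qb))⁻¹ = u * (algebraMap ℚ Qb q * b) + v := by
      rw [hx']
      field_simp
      linear_combination -huv'
    have h2 : ((ℓ : Qb))⁻¹ ∈ A := by
      rw [h1]
      exact add_mem (mul_mem (intCast_mem A u) (mul_mem hx (natCast_mem A b))) (intCast_mem A v)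
    -- contradiction with `ℓ ∈ A.nonunits`
    have h3 : A.valuation (ℓ : Qb) < 1 := (A.mem_nonunits_iff).1 hA
    have h4 : A.valuation ((ℓ : Qb))⁻¹ ≤ 1 := (A.valuation_le_one_iff _).2 h2
    rw [map_inv₀, inv_le_one₀ (zero_lt_iff.2 ((A.valuation.ne_zero_iff).2 hℓ0))] at h4
    exact absurd h3 (not_lt.2 h4)

theorem algebraMap_Rl_mem (A : ValuationSubring Qb) (hA : A.LiesOverPrime ℓ) (r : Rl ℓ) :
    algebraMap (Rl ℓ) Qb r ∈ A := by
  rw [algebraMap_Rl_apply]
  exact (mem_ratLocalizedAt_iff A hA _).1 r.2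

/-- an element of `A` fixed by `GQ` comes from `Rl ℓ`. -/
theorem exists_Rl_of_fixed (A : ValuationSubring Qb) (hA : A.LiesOverPrime ℓ) (z : Qb)
    (hz : z ∈ A) (hfix : ∀ σ : GQ, σ z = z) : ∃ r : Rl ℓ, algebraMap (Rl ℓ) Qb r = z := by
  have hcl : IsAlgClosure ℚ Qb := ⟨inferInstance, AlgebraicClosure.isAlgebraic ℚ⟩
  have hgal : IsGalois ℚ Qb := IsAlgClosure.isGalois ℚ Qb
  have hmem : z ∈ (⊥ : IntermediateField ℚ Qb) := (InfiniteGalois.mem_bot_iff_fixed z).2 hfix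
  obtain ⟨q, rfl⟩ := IntermediateField.mem_bot.1 hmem
  exact ⟨⟨q, (mem_ratLocalizedAt_iff A hA q).2 hz⟩, rfl⟩

end Fermat.Agent.S19
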