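import Fermat.Agent.S19.H.Rl

/-!
# S19-H : basic facts on valuation subrings of `Qb` over `ℓ`
-/

set_option autoImplicit false

open scoped Pointwise

noncomputable section

namespace Fermat.Agent.S19

variable {ℓ : ℕ} [Fact ℓ.Prime]

theorem mem_smul_iff (A : ValuationSubring Qb) (σ : GQ) (x : Qb) : x ∈ σ • A ↔ σ⁻¹ x ∈ A := by
  constructor
  · intro h
    obtain ⟨y, hy, rfl⟩ := (ValuationSubring.mem_smul_pointwise_iff_exists _ _ _).1 h
    have : σ⁻¹ (σ • y) = y := by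
      change σ⁻¹ (σ y) = y
      exact σ.symm_apply_apply y
    rw [this]; exact hy
  · intro h
    refine (ValuationSubring.mem_smul_pointwise_iff_exists _ _ _).2 ⟨σ⁻¹ x, h, ?_⟩
    change σ (σ⁻¹ x) = x
    exact σ.apply_symm_apply x

/-- the conjugates of `A` lie over `ℓ`. -/
theorem liesOverPrime_smul (A : ValuationSubring Qb) (hA : A.LiesOverPrime ℓ) (σ : GQ) :
    (σ • A).LiesOverPrime ℓ := by
  unfold ValuationSubring.LiesOverPrime at *
  rw [ValuationSubring.mem_nonunits_iff_or] at *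
  rcases hA with hA | hA
  · exact Or.inl hA
  · refine Or.inr fun h => hA ?_
    have := (mem_smul_iff A σ _).1 h
    simpa using this

theorem mem_decompositionSubgroup_iff (A : ValuationSubring Qb) (σ : GQ) :
    σ ∈ A.decompositionSubgroup ℚ ↔ ∀ x, x ∈ A ↔ σ x ∈ A := by
  have h0 : σ ∈ A.decompositionSubgroup ℚ ↔ σ • A = A := Iff.rfl
  rw [h0]
  constructor
  · intro h x
    constructor
    · intro hx
      rw [← h, mem_smul_iff]
      have : σ⁻¹ (σ x) = x := σ.symm_apply_apply x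
      rw [this]; exact hx
    · intro hx
      rw [← h, mem_smul_iff] at hx
      have : σ⁻¹ (σ x) = x := σ.symm_apply_apply x
      rwa [this] at hx
  · intro h
    ext x
    rw [mem_smul_iff, h (σ⁻¹ x)]
    have : σ (σ⁻¹ x) = x := σ.apply_symm_apply x
    rw [this]

/-- integral elements lie in every valuation subring. -/
theorem val_mem_of_isIntegral (B : ValuationSubring Qb) (y : Qb) (hy : IsIntegral ℤ y) : y ∈ B := by
  have h1 : IsIntegral B y := hy.tower_top
  have h2 := (IsIntegrallyClosed.isIntegral_iff (R := B) (K := Qb)).1 h1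
  obtain ⟨z, rfl⟩ := h2
  exact z.2

/-- [`m x` is integral over `ℤ` for some `m ≠ 0`, and so are its conjugates; integral elements lie
in every valuation subring.] -/
theorem exists_nat_mul_mem (x : Qb) :
    ∃ m : ℕ, m ≠ 0 ∧ ∀ (B : ValuationSubring Qb) (σ : GQ), (m : Qb) * σ x ∈ B := by
  have halg : IsAlgebraic ℤ x := by
    have : IsAlgebraic ℚ x := (AlgebraicClosure.isAlgebraic ℚ).isAlgebraic x
    exact (IsFractionRing.isAlgebraic_iff ℤ ℚ Qb).2 this
  obtain ⟨y, hy0, hy⟩ := halg.exists_integral_multiple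
  refine ⟨y.natAbs, by simpa using hy0, fun B σ => ?_⟩
  have h1 : IsIntegral ℤ ((y : Qb) * σ x) := by
    have : (y : Qb) * σ x = σ (y • x) := by
      rw [zsmul_eq_mul, map_mul, map_intCast]
    rw [this]
    exact hy.map σ
  have h2 : ((y.natAbs : ℕ) : Qb) * σ x = (y : Qb) * σ x ∨
      ((y.natAbs : ℕ) : Qb) * σ x = -((y : Qb) * σ x) := by
    rcases Int.natAbs_eq y with h | h
    · left
      conv_rhs => rw [h]
      simp
    · right
      conv_rhs => rw [h]
      simp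
  rcases h2 with h2 | h2
  · rw [h2]; exact val_mem_of_isIntegral B _ h1
  · rw [h2]; exact B.neg_mem _ (val_mem_of_isIntegral B _ h1)

/-- a natural number prime to `ℓ` is a unit of `A`. -/
theorem val_inv_natCast_mem (A : ValuationSubring Qb) (hA : A.LiesOverPrime ℓ) (m : ℕ)
    (hm : Nat.Coprime m ℓ) : ((m : Qb))⁻¹ ∈ A := by
  by_contra hcon
  have h1 : (m : Qb) ∈ A.nonunits := (ValuationSubring.mem_nonunits_iff_or A).2 (Or.inr hcon)
  have hA' : (ℓ : Qb) ∈ A.nonunits := hA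
  rw [ValuationSubring.mem_nonunits_iff] at h1 hA'
  -- Bezout
  have hb : (m : ℤ) * Nat.gcdA m ℓ + (ℓ : ℤ) * Nat.gcdB m ℓ = 1 := by
    have := Nat.gcd_eq_gcd_ab m ℓ
    rw [hm.gcd_eq_one] at this
    push_cast at this
    linarith
  have hb' : (m : Qb) * ((Nat.gcdA m ℓ : ℤ) : Qb) + (ℓ : Qb) * ((Nat.gcdB m ℓ : ℤ) : Qb) = 1 := by
    exact_mod_cast congrArg (fun z : ℤ => (z : Qb)) hb
  have hint : ∀ z : ℤ, A.valuation (z : Qb) ≤ 1 := fun z =>
    (A.valuation_le_one_iff _).2 (intCast_mem A z)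
  have h3 : A.valuation ((m : Qb) * ((Nat.gcdA m ℓ : ℤ) : Qb)) < 1 := by
    rw [map_mul]
    exact mul_lt_one_of_lt_of_le h1 (hint _)
  have h4 : A.valuation ((ℓ : Qb) * ((Nat.gcdB m ℓ : ℤ) : Qb)) < 1 := by
    rw [map_mul]
    exact mul_lt_one_of_lt_of_le hA' (hint _)
  have h5 := A.valuation.map_add_lt h3 h4
  rw [hb', map_one] at h5
  exact lt_irrefl _ h5

/-- [write `m = ℓ ^ s m'` in the previous lemma; `m'` is a unit of `A`.] -/
theorem exists_pow_mul_mem (A : ValuationSubring Qb) (hA : A.LiesOverPrime ℓ) (x : Qb) :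
    ∃ s : ℕ, (ℓ : Qb) ^ s * x ∈ A := by
  obtain ⟨m, hm0, hm⟩ := exists_nat_mul_mem x
  have hℓ : ℓ.Prime := Fact.out
  obtain ⟨s, m', hm', rfl⟩ := Nat.exists_eq_pow_mul_and_not_dvd hm0 ℓ hℓ.ne_one
  refine ⟨s, ?_⟩
  have h1 := hm A 1
  have h2 : ((m' : Qb))⁻¹ ∈ A :=
    val_inv_natCast_mem A hA m' ((Nat.Prime.coprime_iff_not_dvd hℓ).2 hm').symm
  have hm'0 : (m' : Qb) ≠ 0 := by
    intro h
    have : m' = 0 := by exact_mod_cast h
    subst this
    simp at hm0
  have h3 : (ℓ : Qb) ^ s * x = ((m' : Qb))⁻¹ * (((ℓ ^ s * m' : ℕ) : Qb) * (1 : GQ) x) := by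
    push_cast
    have : (1 : GQ) x = x := rfl
    rw [this]
    field_simp
  rw [h3]
  exact A.mul_mem _ _ h2 h1

end Fermat.Agent.S19
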