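import Fermat.Agent.S19.H.Descent2
import Fermat.Agent.S19.H.Val

/-!
# S19-H : the integral equivariant functions span
-/

set_option autoImplicit false

noncomputable section

namespace Fermat.Agent.S19

variable {X : Type} [Fintype X] [MulAction GQ X]

variable {ℓ : ℕ} [Fact ℓ.Prime]

omit [Fintype X] [MulAction GQ X] in
theorem span_aux_smul_mem (A : ValuationSubring Qb) (M : Submodule A (X → Qb)) {q : Qb} (hq : q ∈ A)
    {g : X → Qb} (hg : g ∈ M) : q • g ∈ M :=
  M.smul_mem (⟨q, hq⟩ : A) hg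

omit [MulAction GQ X] in
/-- a common denominator for the values of a function. -/
theorem span_aux_exists_nat (A : ValuationSubring Qb) (a : X → Qb) :
    ∃ m : ℕ, m ≠ 0 ∧ ∀ x, (m : Qb) * a x ∈ A := by
  classical
  choose m hm0 hm using fun x => exists_nat_mul_mem (a x)
  refine ⟨∏ x, m x, Finset.prod_ne_zero_iff.2 fun x _ => hm0 x, fun x => ?_⟩
  rw [← Finset.mul_prod_erase _ _ (Finset.mem_univ x), Nat.cast_mul, mul_right_comm]
  refine mul_mem ?_ (natCast_mem A _)
  have := hm x A 1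
  simpa using this

/-- the integral equivariant functions span. [`exists_nat_mul_mem`.] -/
theorem span_ED_top_eq_top (A : ValuationSubring Qb) (hfin : FinLevel X) :
    Submodule.span Qb (ED A ⊤ X) = ⊤ := by
  rw [eq_top_iff, ← span_equivariant_eq_top hfin, Submodule.span_le]
  intro a ha
  obtain ⟨m, hm0, hm⟩ := span_aux_exists_nat A a
  have hm0' : (m : Qb) ≠ 0 := Nat.cast_ne_zero.2 hm0
  have h1 : (m : Qb) • a ∈ ED A ⊤ X := by
    refine ⟨fun x => hm x, fun σ _ x => ?_⟩
    rw [Pi.smul_apply, Pi.smul_apply, smul_eq_mul, smul_eq_mul, ha σ x, map_mul, map_natCast]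
  have h2 : a = (m : Qb)⁻¹ • ((m : Qb) • a) := by
    rw [smul_smul, inv_mul_cancel₀ hm0', one_smul]
  rw [h2]
  exact Submodule.smul_mem _ _ (Submodule.subset_span h1)

omit [Fintype X] [MulAction GQ X] [Fact ℓ.Prime] in
theorem span_aux_pow_mono (A : ValuationSubring Qb) (M : Submodule A (X → Qb)) {g : X → Qb}
    {s t : ℕ} (hst : s ≤ t) (h : ((ℓ : Qb) ^ s) • g ∈ M) : ((ℓ : Qb) ^ t) • g ∈ M := by
  obtain ⟨r, rfl⟩ := Nat.exists_eq_add_of_le hst
  rw [add_comm, pow_add, mul_smul]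
  exact span_aux_smul_mem A M (pow_mem (natCast_mem A ℓ) r) h

omit [Fintype X] [MulAction GQ X] in
theorem span_aux_exists_pow (A : ValuationSubring Qb) (hA : A.LiesOverPrime ℓ) (E : Set (X → Qb))
    (g : X → Qb) (hg : g ∈ Submodule.span Qb E) :
    ∃ s : ℕ, ((ℓ : Qb) ^ s) • g ∈ Submodule.span A E := by
  induction hg using Submodule.span_induction with
  | mem g hg => exact ⟨0, by rw [pow_zero, one_smul]; exact Submodule.subset_span hg⟩
  | zero => exact ⟨0, by rw [smul_zero]; exact Submodule.zero_mem _⟩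
  | add g₁ g₂ _ _ h₁ h₂ =>
    obtain ⟨s₁, h₁⟩ := h₁
    obtain ⟨s₂, h₂⟩ := h₂
    refine ⟨s₁ + s₂, ?_⟩
    rw [smul_add]
    exact Submodule.add_mem _ (span_aux_pow_mono A _ (Nat.le_add_right _ _) h₁)
      (span_aux_pow_mono A _ (Nat.le_add_left _ _) h₂)
  | smul c g _ h =>
    obtain ⟨s, h⟩ := h
    obtain ⟨t, ht⟩ := exists_pow_mul_mem A hA c
    refine ⟨t + s, ?_⟩
    have : ((ℓ : Qb) ^ (t + s)) • c • g = ((ℓ : Qb) ^ t * c) • ((ℓ : Qb) ^ s) • g := by
      rw [smul_smul, smul_smul, pow_add]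
      congr 1
      ring
    rw [this]
    exact span_aux_smul_mem A _ ht h

/-- `ℓ ^ s (X → A) ⊆ MG A X` for `s` large. [each `Pi.single x 1` is a `Qb`-combination of elements
of `ED A ⊤ X`; `exists_pow_mul_mem` for the finitely many coefficients.] -/
theorem exists_pow_smul_mem_MG (A : ValuationSubring Qb) (hA : A.LiesOverPrime ℓ)
    (hfin : FinLevel X) :
    ∃ s : ℕ, ∀ f : X → Qb, (∀ x, f x ∈ A) → ((ℓ : Qb) ^ s) • f ∈ MG A X := by
  classical
  choose s hs using fun x : X => span_aux_exists_pow A hA (ED A ⊤ X) (Pi.single x (1 : Qb))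
    (by rw [span_ED_top_eq_top A hfin]; exact Submodule.mem_top)
  refine ⟨∑ x, s x, fun f hf => ?_⟩
  have hf' : f = ∑ x, f x • (Pi.single x (1 : Qb) : X → Qb) := by
    ext y
    simp [Finset.sum_apply, Pi.single_apply]
  rw [hf', Finset.smul_sum]
  refine Submodule.sum_mem _ fun x _ => ?_
  rw [smul_comm]
  refine span_aux_smul_mem A _ (hf x) ?_
  exact span_aux_pow_mono A _ (Finset.single_le_sum (f := s) (fun _ _ => Nat.zero_le _)
    (Finset.mem_univ x)) (hs x)

end Fermat.Agent.S19
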