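import Fermat.Agent.S19.H.Approx
import Fermat.Agent.S19.H.Span

/-!
# S19-H : (H1) from the decomposition group to the whole Galois group
-/

set_option autoImplicit false

open scoped Pointwise

noncomputable section

namespace Fermat.Agent.S19

variable {X : Type} [Fintype X] [MulAction GQ X] {ℓ : ℕ} [Fact ℓ.Prime]

theorem step_finiteIndex (K : IntermediateField ℚ Qb) [FiniteDimensional ℚ K] :
    K.fixingSubgroup.FiniteIndex := by
  have : IsAlgClosure ℚ Qb := ⟨inferInstance, AlgebraicClosure.isAlgebraic ℚ⟩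
  have : Normal ℚ Qb := IsAlgClosure.normal ℚ Qb
  have : IsGalois ℚ Qb := ⟨⟩
  refine ⟨?_⟩
  rw [← IntermediateField.finrank_eq_fixingSubgroup_index]
  exact Module.finrank_pos.ne'

omit [Fintype X] in
/-- the subgroup of the `u` with `u (w * a (u⁻¹ • y)) = w * a y`. -/
def stepStab (w : Qb) (a : X → Qb) : Subgroup GQ where
  carrier := {u | ∀ y, u (w * a (u⁻¹ • y)) = w * a y}
  one_mem' := by
    intro y
    simp
  mul_mem' := by
    intro u v hu hv y
    have h1 := hv (u⁻¹ • y)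
    have h2 := hu y
    rw [mul_inv_rev, mul_smul, AlgEquiv.mul_apply, h1, h2]
  inv_mem' := by
    intro u hu y
    have h1 := hu (u • y)
    rw [inv_smul_smul] at h1
    rw [inv_inv, ← h1]
    exact u.symm_apply_apply _

omit [Fintype X] in
/-- an abstract version of the trace construction. -/
theorem step_trace (U : Subgroup GQ) [U.FiniteIndex] (w : Qb) (a : X → Qb)
    (hU : U ≤ stepStab w a) :
    ∃ S : GQ ⧸ U → X → Qb, (∀ (σ : GQ) (x : X), S (σ : GQ ⧸ U) x = σ (w * a (σ⁻¹ • x))) ∧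
      ∀ (τ : GQ) (x : X), ∑ᶠ q, S q (τ • x) = τ (∑ᶠ q, S q x) := by
  classical
  have hfin : Finite (GQ ⧸ U) := Subgroup.finite_quotient_of_finiteIndex
  have := Fintype.ofFinite (GQ ⧸ U)
  let s : GQ → X → Qb := fun σ x => σ (w * a (σ⁻¹ • x))
  have hs : ∀ σ σ' : GQ, QuotientGroup.leftRel U σ σ' → s σ = s σ' := by
    intro σ σ' h
    rw [QuotientGroup.leftRel_apply] at h
    have h1 := hU h
    funext x
    have h2 := h1 (σ⁻¹ • x)
    have e1 : σ' = σ * (σ⁻¹ * σ') := by group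
    show σ (w * a (σ⁻¹ • x)) = σ' (w * a (σ'⁻¹ • x))
    rw [← h2]
    have e2 : (σ⁻¹ * σ')⁻¹ • σ⁻¹ • x = σ'⁻¹ • x := by
      rw [← mul_smul]
      congr 1
      group
    rw [e2, ← AlgEquiv.mul_apply, ← e1]
  let S : GQ ⧸ U → X → Qb := Quotient.lift s hs
  have hS : ∀ (σ : GQ) (x : X), S (σ : GQ ⧸ U) x = σ (w * a (σ⁻¹ • x)) := fun σ x => rfl
  refine ⟨S, hS, fun τ x => ?_⟩
  rw [finsum_eq_sum_of_fintype, finsum_eq_sum_of_fintype, map_sum]
  have h1 : ∀ q : GQ ⧸ U, S (τ • q) (τ • x) = τ (S q x) := by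
    intro q
    induction q using QuotientGroup.induction_on with
    | H σ =>
      have e : τ • (σ : GQ ⧸ U) = ((τ * σ : GQ) : GQ ⧸ U) := rfl
      rw [e, hS, hS, mul_inv_rev, mul_smul, inv_smul_smul]
      rfl
  rw [← Equiv.sum_comp (MulAction.toPerm τ : Equiv.Perm (GQ ⧸ U))]
  exact Finset.sum_congr rfl fun q _ => h1 q

omit [Fact ℓ.Prime] in
theorem step_sum_mem (A : ValuationSubring Qb) {ι : Type*} (s : Finset ι) (f : ι → Qb)
    (h : ∀ i ∈ s, ∃ t ∈ A, f i = ℓ * t) : ∃ t ∈ A, ∑ i ∈ s, f i = ℓ * t := by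
  classical
  induction s using Finset.induction_on with
  | empty => exact ⟨0, A.zero_mem, by simp⟩
  | insert i s hi ih =>
    obtain ⟨t, ht, e⟩ := ih fun j hj => h j (Finset.mem_insert_of_mem hj)
    obtain ⟨t', ht', e'⟩ := h i (Finset.mem_insert_self i s)
    exact ⟨t' + t, A.add_mem _ _ ht' ht, by rw [Finset.sum_insert hi, e, e']; ring⟩

/-- one step: `a ∈ A·E_Γ + ℓ E_D`.
[`L` normal number field containing the values of `a` and through which the action on `X` factors;
`U := D ⊔ G_L` (finite index); `V :=` the values of `a`; `w` from `exists_approx`.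
`a_w x := ∑_{q : GQ ⧸ U} σ_q (w * a (σ_q⁻¹ • x))`, `σ_q = q.out`; the summand does not depend on the
representative (`D`: equivariance of `a` and `δ w = w`; `G_L`: everything lies in `L`), so `a_w` is
`GQ`-equivariant; the term of the trivial coset is `w * a x`, all the others lie in `ℓ A`.
`a = w⁻¹ • a_w + ℓ • a'`, and `a'` is `D`-equivariant because `a`, `a_w`, `w` are.] -/
theorem exists_step (A : ValuationSubring Qb) (hA : A.LiesOverPrime ℓ) (hfin : FinLevel X)
    (a : X → Qb) (ha : a ∈ ED A (A.decompositionSubgroup ℚ) X) :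
    ∃ b ∈ MG A X, ∃ a' ∈ ED A (A.decompositionSubgroup ℚ) X, a = b + (ℓ : Qb) • a' := by
  classical
  obtain ⟨L₀, hL₀, hact⟩ := hfin
  have halg : Algebra.IsAlgebraic ℚ Qb := AlgebraicClosure.isAlgebraic ℚ
  have : IsAlgClosure ℚ Qb := ⟨inferInstance, AlgebraicClosure.isAlgebraic ℚ⟩
  have : Normal ℚ Qb := IsAlgClosure.normal ℚ Qb
  have hK₁ : FiniteDimensional ℚ (IntermediateField.adjoin ℚ (Set.range a)) :=
    IntermediateField.finiteDimensional_adjoin
      (fun x _ => (Algebra.IsAlgebraic.isAlgebraic x).isIntegral)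
  let K : IntermediateField ℚ Qb := L₀ ⊔ IntermediateField.adjoin ℚ (Set.range a)
  have hK : FiniteDimensional ℚ K := IntermediateField.finiteDimensional_sup _ _
  let L : IntermediateField ℚ Qb := IntermediateField.normalClosure ℚ K Qb
  have hLfin : FiniteDimensional ℚ L := normalClosure.is_finiteDimensional ℚ K Qb
  have hLn : Normal ℚ L := normalClosure.normal ℚ K Qb
  have hKL : K ≤ L := K.le_normalClosure
  have hval : ∀ x, a x ∈ L := fun x =>
    hKL ((le_sup_right : _ ≤ K) (IntermediateField.subset_adjoin ℚ _ ⟨x, rfl⟩))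
  have hact' : ∀ σ ∈ L.fixingSubgroup, ∀ x : X, σ • x = x := fun σ hσ =>
    hact σ (IntermediateField.fixingSubgroup_antitone ((le_sup_left : L₀ ≤ K).trans hKL) hσ)
  obtain ⟨w, hwL, hw0, hwD, hwA, hwA', hw⟩ := exists_approx A hA L hLn (Finset.univ.image a) (by
    intro c hc
    obtain ⟨x, -, rfl⟩ := Finset.mem_image.1 hc
    exact hval x)
  have hfi : L.fixingSubgroup.FiniteIndex := step_finiteIndex L
  have hUfi : (A.decompositionSubgroup ℚ ⊔ L.fixingSubgroup).FiniteIndex :=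
    Subgroup.finiteIndex_of_le le_sup_right
  have hU : A.decompositionSubgroup ℚ ⊔ L.fixingSubgroup ≤ stepStab w a := by
    refine sup_le ?_ ?_
    · intro δ hδ y
      rw [map_mul, hwD δ hδ, ← ha.2 δ hδ, smul_inv_smul]
    · intro σ hσ y
      have h1 : σ⁻¹ • y = y := hact' _ (inv_mem hσ) y
      rw [h1]
      exact (IntermediateField.mem_fixingSubgroup_iff L σ).1 hσ _ (mul_mem hwL (hval y))
  obtain ⟨S, hS, hSeq⟩ := step_trace _ w a hU
  have hfinq : Finite (GQ ⧸ (A.decompositionSubgroup ℚ ⊔ L.fixingSubgroup)) :=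
    Subgroup.finite_quotient_of_finiteIndex
  have := Fintype.ofFinite (GQ ⧸ (A.decompositionSubgroup ℚ ⊔ L.fixingSubgroup))
  have hℓ : (ℓ : Qb) ≠ 0 := Nat.cast_ne_zero.2 (Fact.out : ℓ.Prime).ne_zero
  -- the decomposition of the trace
  have hdec : ∀ x, ∃ t ∈ A, ∑ᶠ q, S q x = w * a x + ℓ * t := by
    intro x
    rw [finsum_eq_sum_of_fintype,
      ← Finset.add_sum_erase Finset.univ (fun q => S q x)
        (Finset.mem_univ ((1 : GQ) : GQ ⧸ (A.decompositionSubgroup ℚ ⊔ L.fixingSubgroup)))]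
    obtain ⟨t, ht, e⟩ := step_sum_mem (ℓ := ℓ) A (Finset.univ.erase
      ((1 : GQ) : GQ ⧸ (A.decompositionSubgroup ℚ ⊔ L.fixingSubgroup))) (fun q => S q x) (by
      intro q hq
      have hq1 := Finset.ne_of_mem_erase hq
      induction q using QuotientGroup.induction_on with
      | H σ =>
        have hσ : σ ∉ A.decompositionSubgroup ℚ ⊔ L.fixingSubgroup := by
          intro h
          apply hq1
          rw [QuotientGroup.eq]
          simpa using inv_mem h
        rw [hS]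
        exact hw σ hσ _ (Finset.mem_image_of_mem a (Finset.mem_univ _)))
    refine ⟨t, ht, ?_⟩
    rw [e, hS]
    simp
  choose T hTA hT using hdec
  refine ⟨(⟨w⁻¹, hwA'⟩ : A) • (fun x => ∑ᶠ q, S q x), ?_, fun x => -(w⁻¹ * T x), ⟨?_, ?_⟩, ?_⟩
  · refine Submodule.smul_mem _ _ (Submodule.subset_span ⟨fun x => ?_, fun τ _ x => hSeq τ x⟩)
    show ∑ᶠ q, S q x ∈ A
    rw [hT]
    exact A.add_mem _ _ (A.mul_mem _ _ hwA (ha.1 x))
      (A.mul_mem _ _ (natCast_mem A ℓ) (hTA x))
  · intro x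
    exact A.neg_mem _ (A.mul_mem _ _ hwA' (hTA x))
  · intro δ hδ x
    have h1 := hSeq δ x
    rw [hT, hT, map_add, map_mul, map_mul, hwD δ hδ, ← ha.2 δ hδ, map_natCast] at h1
    have h2 : T (δ • x) = δ (T x) := mul_left_cancel₀ hℓ (add_left_cancel h1)
    show -(w⁻¹ * T (δ • x)) = δ (-(w⁻¹ * T x))
    rw [h2, map_neg, map_mul, map_inv₀, hwD δ hδ]
  · funext x
    show a x = w⁻¹ * (∑ᶠ q, S q x) + (ℓ : Qb) * (-(w⁻¹ * T x))
    rw [hT]
    field_simp
    ring

end Fermat.Agent.S19
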